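import Fermat.Agent.EffectiveTorusCurves.Main
import Mathlib.Algebra.MvPolynomial.Degrees
import Mathlib.RingTheory.MvPolynomial.Basic

/-!
# Polynomials in two variables

The support of a polynomial in `Fin 2` variables as a set of pairs of exponents.
-/

set_option autoImplicit false

noncomputable section

namespace FA.EffectiveTorusCurves

open Finset

/-- The pairs of exponents. -/
def exponentPairs (f : MvPolynomial (Fin 2) ℤ) : Finset (ℕ × ℕ) :=
  f.support.image fun m => (m 0, m 1)

/-- The coefficient at a pair. -/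
def pairCoeff (f : MvPolynomial (Fin 2) ℤ) (e : ℕ × ℕ) : ℤ :=
  f.coeff (Finsupp.single 0 e.1 + Finsupp.single 1 e.2)

theorem pair_eq (m : Fin 2 →₀ ℕ) : Finsupp.single 0 (m 0) + Finsupp.single 1 (m 1) = m := by
  ext i
  fin_cases i <;> simp

theorem aeval_eq_curveValue (f : MvPolynomial (Fin 2) ℤ) (x y : ℚ) :
    MvPolynomial.aeval ![x, y] f = curveValue (exponentPairs f) (pairCoeff f) x y := by
  rw [curveValue, exponentPairs, sum_image fun m _ m' _ h => by
    simp only [Prod.mk.injEq] at h
    rw [← pair_eq m, ← pair_eq m', h.1, h.2]]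
  rw [MvPolynomial.aeval_def, MvPolynomial.eval₂_eq']
  refine sum_congr rfl fun m _ => ?_
  rw [pairCoeff, pair_eq, Fin.prod_univ_two, algebraMap_int_eq, eq_intCast]
  simp [mul_assoc]

theorem sized_pairs {f : MvPolynomial (Fin 2) ℤ} {n k : ℕ} (hn : f.totalDegree ≤ n)
    (hk : ∀ m, (f.coeff m).natAbs ≤ 2 ^ k) : Sized (exponentPairs f) (pairCoeff f) n k := by
  intro e he
  obtain ⟨m, hm, rfl⟩ := mem_image.1 he
  rw [pairCoeff, pair_eq]
  refine ⟨?_, MvPolynomial.mem_support_iff.1 hm, hk m⟩
  refine le_trans ?_ ((MvPolynomial.le_totalDegree hm).trans hn)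
  rw [Finsupp.sum_fintype _ _ (by simp), Fin.sum_univ_two]

end FA.EffectiveTorusCurves

end
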