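import Fermat.Agent.EffectiveTorusCurves.Polygon
import Fermat.Agent.BakerExplicit.SUnitBound

/-!
# The points composed of small primes on a curve

A bounded monomial makes the curve in the remaining coordinate a polynomial, which is zero or has
bounded rational roots; otherwise all exponents are at most a power of their own logarithm.
-/

set_option autoImplicit false

noncomputable section

namespace FA.EffectiveTorusCurves

open Finset Polynomial FA.BakerExplicit BakerExplicit.EffectiveSUnits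

/-- A translate of a one-dimensional subtorus through `(x, y)` lies on the curve. -/
def OnTranslate (F : Finset (ℕ × ℕ)) (c : ℕ × ℕ → ℤ) (x y : ℚ) : Prop :=
  ∃ a b : ℤ, IsCoprime a b ∧ ∀ s : ℚ, s ≠ 0 → curveValue F c (x * s ^ b) (y * s ^ (-a)) = 0

/-- The coefficients in the remaining coordinate. -/
def lineSize (n k : ℕ) : ℕ := 2 * n + k + 2 * (n * (n + 1)) * k

/-- The exponents when a monomial is bounded. -/
def pointBound (n k : ℕ) : ℕ := (n + 1) * k + n * lineSize n k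

/-- The part of the gap free of the exponents. -/
def gapBase (n k g : ℕ) : ℕ := 2 * (k + g * k * n) + k + n * (n + 1) + k + 1

/-- The factor of the power of the logarithm in the gap. -/
def gapRate (n k g : ℕ) : ℕ :=
  2 * n * baseAlg (2 ^ g + 2) n (unitHeight n (k + g * k * n) g) (2 * n + 1) ^ kappa (2 ^ g + 2)

/-- **The bound for the exponents.** -/
def expBound (n k g : ℕ) : ℕ :=
  2 * (2 * n * ((n + 1) ^ 2 * gapBase n k g)) +
    2 * (2 * kappa (2 ^ g + 2)) ^ (2 * kappa (2 ^ g + 2)) *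
      (2 * n * ((n + 1) ^ 2 * gapRate n k g)) ^ 2 + pointBound n k

/-- **The bound for `log₂` of numerators and denominators.** -/
def curveBound (n k g : ℕ) : ℕ := g * (expBound n k g * (2 ^ g + 1))

theorem exists_small_bezout {a b : ℤ} {n : ℕ} (hab : IsCoprime a b) (ha : a.natAbs ≤ n)
    (hb : b.natAbs ≤ n) :
    ∃ u v : ℤ, u * a + v * b = 1 ∧ u.natAbs ≤ n + 1 ∧ v.natAbs ≤ n + 1 := by
  obtain ⟨u, v, huv⟩ := hab
  rcases eq_or_ne b 0 with rfl | hb0
  · rw [mul_zero, add_zero] at huv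
    rcases Int.eq_one_or_neg_one_of_mul_eq_one' huv with ⟨hu, -⟩ | ⟨hu, -⟩ <;>
      exact ⟨u, 0, by rw [huv, zero_mul, add_zero], by rw [hu]; simp, by simp⟩
  refine ⟨u % b, v + u / b * a, ?_, ?_, ?_⟩
  · linear_combination huv + a * Int.emod_add_mul_ediv u b
  · have h1 := Int.emod_nonneg u hb0
    have h2 := Int.emod_lt_abs u hb0
    rw [Int.abs_eq_natAbs] at h2
    omega
  · have h1 : ((v + u / b * a) * b).natAbs = (1 - u % b * a).natAbs :=
      congrArg Int.natAbs (by linear_combination huv + a * Int.emod_add_mul_ediv u b)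
    rw [Int.natAbs_mul] at h1
    have h2 : (u % b).natAbs ≤ b.natAbs := by
      have h3 := Int.emod_nonneg u hb0
      have h4 := Int.emod_lt_abs u hb0
      rw [Int.abs_eq_natAbs] at h4
      omega
    have h5 : (1 - u % b * a).natAbs ≤ (n + 1) * b.natAbs := by
      refine (Int.natAbs_sub_le _ _).trans ?_
      rw [Int.natAbs_one, Int.natAbs_mul, add_mul, one_mul, add_comm, mul_comm n]
      exact Nat.add_le_add (Nat.mul_le_mul h2 ha) (Int.natAbs_pos.2 hb0)
    exact Nat.le_of_mul_le_mul_right (h1.trans_le h5) (Int.natAbs_pos.2 hb0)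

/-- Small height bounds the exponents. -/
theorem SBox.of_height {g E B : ℕ} {x : ℚ} (hx : SBox g E x) (hn : x.num.natAbs ≤ 2 ^ B)
    (hd : x.den ≤ 2 ^ B) : SBox g B x := by
  refine ⟨hx.1, fun q hq => ⟨(hx.2 q hq).1, ?_⟩⟩
  have key : ∀ z : ℕ, z ≠ 0 → z ≤ 2 ^ B → padicValNat q z ≤ B := fun z hz hzB =>
    (Nat.pow_le_pow_iff_right one_lt_two).1 (((Nat.pow_le_pow_left hq.two_le _).trans
      (Nat.le_of_dvd (Nat.pos_of_ne_zero hz) pow_padicValNat_dvd)).trans hzB)
  have h1 := key _ (Int.natAbs_ne_zero.2 (Rat.num_ne_zero.2 hx.1)) hn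
  have h2 := key _ x.den_nz hd
  rw [padicValRat_def, padicValInt]
  omega

/-- **A bounded monomial.** -/
theorem translate_or_small {F : Finset (ℕ × ℕ)} {c : ℕ × ℕ → ℤ} {n k g E : ℕ}
    (hF : Sized F c n k) {x y : ℚ} (hx : SBox g E x) (hy : SBox g E y)
    (hxy : curveValue F c x y = 0) {a b : ℤ} (hab : IsCoprime a b) (ha : a.natAbs ≤ n)
    (hb : b.natAbs ≤ n) (htn : (x ^ a * y ^ b).num.natAbs ≤ 2 ^ k)
    (htd : (x ^ a * y ^ b).den ≤ 2 ^ k) :
    (SBox g (pointBound n k) x ∧ SBox g (pointBound n k) y) ∨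
      OnTranslate F c x y ∧ ∃ x₀ y₀, SBox g (pointBound n k) x₀ ∧
        SBox g (pointBound n k) y₀ ∧ OnTranslate F c x₀ y₀ := by
  classical
  obtain ⟨u, v, huv, hu, hv⟩ := exists_small_bezout hab ha hb
  obtain ⟨t, ht⟩ : ∃ t, t = x ^ a * y ^ b := ⟨_, rfl⟩
  obtain ⟨r, hr⟩ : ∃ r, r = x ^ v * y ^ (-u) := ⟨_, rfl⟩
  rw [← ht] at htn htd
  have htS : SBox g k t :=
    (show SBox g _ t from ht ▸ (hx.zpow a).mul (hy.zpow b)).of_height htn htd
  have hr0 : r ≠ 0 := hr ▸ mul_ne_zero (zpow_ne_zero _ hx.1) (zpow_ne_zero _ hy.1)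
  have ht0 : t ≠ 0 := htS.1
  have ex : x = t ^ u * r ^ b := by
    rw [ht, hr, mul_zpow, mul_zpow, ← zpow_mul, ← zpow_mul, ← zpow_mul, ← zpow_mul,
      mul_mul_mul_comm, ← zpow_add₀ hx.1, ← zpow_add₀ hy.1,
      show a * u + v * b = 1 by linear_combination huv,
      show b * u + -u * b = 0 by ring, zpow_one, zpow_zero, mul_one]
  have ey : y = t ^ v * r ^ (-a) := by
    rw [ht, hr, mul_zpow, mul_zpow, ← zpow_mul, ← zpow_mul, ← zpow_mul, ← zpow_mul,
      mul_mul_mul_comm, ← zpow_add₀ hx.1, ← zpow_add₀ hy.1,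
      show a * v + v * -a = 0 by ring,
      show b * v + -u * -a = 1 by linear_combination huv, zpow_one, zpow_zero, one_mul]
  obtain ⟨A, hA⟩ : ∃ A, A = n * (n + 1) := ⟨_, rfl⟩
  obtain ⟨D, hD⟩ : ∃ D, D = n * n := ⟨_, rfl⟩
  obtain ⟨w, hw⟩ : ∃ w : ℕ × ℕ → ℤ, ∀ e, w e = u * e.1 + v * e.2 := ⟨_, fun _ => rfl⟩
  obtain ⟨m, hm⟩ : ∃ m : ℕ × ℕ → ℤ, ∀ e, m e = b * e.1 - a * e.2 := ⟨_, fun _ => rfl⟩
  have hrange : ∀ e ∈ F, (w e).natAbs ≤ A ∧ (m e).natAbs ≤ D := fun e he => by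
    have he' := (hF e he).1
    constructor
    · rw [hw, hA]
      refine (Int.natAbs_add_le _ _).trans ?_
      rw [Int.natAbs_mul, Int.natAbs_mul, Int.natAbs_natCast, Int.natAbs_natCast, mul_comm n]
      refine le_trans ?_ (Nat.mul_le_mul_left (n + 1) he')
      rw [mul_add]
      exact Nat.add_le_add (Nat.mul_le_mul_right _ hu) (Nat.mul_le_mul_right _ hv)
    · rw [hm, hD]
      refine (Int.natAbs_sub_le _ _).trans ?_
      rw [Int.natAbs_mul, Int.natAbs_mul, Int.natAbs_natCast, Int.natAbs_natCast]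
      refine le_trans ?_ (Nat.mul_le_mul_left n he')
      rw [mul_add]
      exact Nat.add_le_add (Nat.mul_le_mul_right _ hb) (Nat.mul_le_mul_right _ ha)
  obtain ⟨G, hG⟩ : ∃ G : ℤ[X], G = ∑ e ∈ F, C (c e * t.num ^ ((A : ℤ) + w e).toNat *
      (t.den : ℤ) ^ ((A : ℤ) - w e).toNat) * Polynomial.X ^ (m e + (D : ℤ)).toNat := ⟨_, rfl⟩
  have heval : ∀ s : ℚ, s ≠ 0 → aeval s G = ((t.num : ℚ) * t.den) ^ A * s ^ D *
      curveValue F c (t ^ u * s ^ b) (t ^ v * s ^ (-a)) := fun s hs => by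
    rw [hG, map_sum, curveValue, mul_sum]
    refine sum_congr rfl fun e he => ?_
    obtain ⟨h1, h2⟩ := hrange e he
    rw [map_mul, map_pow, aeval_C, aeval_X, eq_intCast]
    push_cast
    have hden : (t.den : ℚ) ≠ 0 := Nat.cast_ne_zero.2 t.den_nz
    have hnum : (t.num : ℚ) ≠ 0 := Int.cast_ne_zero.2 (Rat.num_ne_zero.2 ht0)
    rw [← zpow_natCast (t.num : ℚ), ← zpow_natCast (t.den : ℚ), ← zpow_natCast s,
      Int.toNat_of_nonneg (by omega), Int.toNat_of_nonneg (by omega),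
      Int.toNat_of_nonneg (by omega), ← zpow_natCast (_ * _) A, ← zpow_natCast s D,
      mul_pow, mul_pow, ← zpow_natCast (t ^ u), ← zpow_natCast (s ^ b), ← zpow_natCast (t ^ v),
      ← zpow_natCast (s ^ (-a)), ← zpow_mul, ← zpow_mul, ← zpow_mul, ← zpow_mul, hw, hm,
      mul_zpow, zpow_add₀ hs, zpow_sub₀ hs, zpow_add₀ hnum, zpow_sub₀ hden, neg_mul, zpow_neg]
    conv_rhs => rw [← Rat.num_div_den t]
    rw [div_zpow, div_zpow, zpow_add₀ hnum, zpow_add₀ hden]
    field_simp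
    simp only [Rat.num_div_den]
  rcases eq_or_ne G 0 with hG0 | hG0
  · -- the translate
    right
    have hzero : ∀ s : ℚ, s ≠ 0 → curveValue F c (t ^ u * s ^ b) (t ^ v * s ^ (-a)) = 0 :=
      fun s hs => by
      have h := heval s hs
      rw [hG0, map_zero, eq_comm, mul_eq_zero] at h
      refine h.resolve_left (mul_ne_zero (pow_ne_zero _ (mul_ne_zero ?_ ?_)) (pow_ne_zero _ hs))
      · exact Int.cast_ne_zero.2 (Rat.num_ne_zero.2 ht0)
      · exact Nat.cast_ne_zero.2 t.den_nz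
    refine ⟨⟨a, b, hab, fun s hs => ?_⟩, t ^ u, t ^ v, ?_, ?_, ⟨a, b, hab, hzero⟩⟩
    · rw [ex, ey, mul_assoc, mul_assoc, ← mul_zpow, ← mul_zpow]
      exact hzero _ (mul_ne_zero hr0 hs)
    · exact (htS.zpow u).mono ((Nat.mul_le_mul_right _ hu).trans (Nat.le_add_right _ _))
    · exact (htS.zpow v).mono ((Nat.mul_le_mul_right _ hv).trans (Nat.le_add_right _ _))
  left
  obtain ⟨L, hL⟩ : ∃ L, L = lineSize n k := ⟨_, rfl⟩
  have hGk : ∀ i, (G.coeff i).natAbs ≤ 2 ^ L := fun i => by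
    rw [hG, finsetSum_coeff]
    refine (Int.natAbs_sum_le _ _).trans ((sum_le_card_nsmul _ _ (2 ^ (k + 2 * (n * (n + 1)) * k))
      fun e he => ?_).trans ?_)
    · rw [coeff_C_mul_X_pow]
      split_ifs
      · rw [Int.natAbs_mul, Int.natAbs_mul, Int.natAbs_pow, Int.natAbs_pow, Int.natAbs_natCast,
          mul_assoc, pow_add]
        refine Nat.mul_le_mul (hF e he).2.2 ((Nat.mul_le_mul (Nat.pow_le_pow_left htn _)
          (Nat.pow_le_pow_left htd _)).trans ?_)
        rw [← pow_mul, ← pow_mul, ← pow_add, ← mul_add, mul_comm k, ← hA]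
        refine Nat.pow_le_pow_right two_pos (Nat.mul_le_mul_right k ?_)
        have := (hrange e he).1
        omega
      · exact Nat.zero_le _
    · rw [smul_eq_mul, hL, lineSize, add_assoc (2 * n), pow_add _ (2 * n)]
      refine Nat.mul_le_mul_right _ (hF.card_le.trans ?_)
      rw [pow_mul', sq, sq]
      exact Nat.mul_le_mul Nat.lt_two_pow_self Nat.lt_two_pow_self
  obtain ⟨j, H, hHG, hH0⟩ : ∃ j H, G = H * Polynomial.X ^ j ∧ H.coeff 0 ≠ 0 := by
    obtain ⟨H, hH, hdvd⟩ := exists_eq_pow_rootMultiplicity_mul_and_not_dvd G hG0 0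
    rw [C_0, sub_zero] at hH hdvd
    exact ⟨rootMultiplicity 0 G, H, hH.trans (mul_comm _ _), fun h => hdvd (X_dvd_iff.2 h)⟩
  have hroot : aeval r H = 0 := by
    have h := heval r hr0
    rw [← ex, ← ey, hxy, mul_zero, hHG, map_mul, map_pow, aeval_X, mul_eq_zero] at h
    exact h.resolve_right (pow_ne_zero _ hr0)
  obtain ⟨hrn, hrd⟩ := rat_root_le hH0 (k := L) (fun i => by
    refine le_trans ?_ (hGk (i + j))
    rw [hHG, coeff_mul_X_pow]) hroot
  have hrS : SBox g L r :=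
    (show SBox g _ r from hr ▸ (hx.zpow v).mul (hy.zpow (-u))).of_height hrn hrd
  rw [ex, ey]
  exact ⟨((htS.zpow u).mul (hrS.zpow b)).mono (Nat.add_le_add (Nat.mul_le_mul_right _ hu)
      (hL ▸ Nat.mul_le_mul_right _ hb)),
    ((htS.zpow v).mul (hrS.zpow (-a))).mono (Nat.add_le_add (Nat.mul_le_mul_right _ hv)
      (hL ▸ Nat.mul_le_mul_right _ (by rwa [Int.natAbs_neg])))⟩

theorem baseAlg_le_mul {R d h m m' L : ℕ} (hm : h + m ≤ (h + m') * L) :
    baseAlg R d h m ≤ baseAlg R d h m' * L := by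
  rw [baseAlg, baseAlg, mul_assoc _ (h + m') L]
  exact Nat.mul_le_mul_left _ hm

theorem gap_arith {K k n U B B' L' C : ℕ} (hB : B ≤ B' * L') :
    U * (C * (K + k + n * (n + 1 + 2 * B) + k + 1)) ≤
      U * (C * (K + k + n * (n + 1) + k + 1)) + U * (C * (2 * n * B')) * L' := by
  have h1 := Nat.mul_le_mul_left (U * (C * (2 * n))) hB
  nlinarith

theorem localBound_le (n k g E : ℕ) :
    localBound n k g E ≤ 2 * n * ((n + 1) ^ 2 * gapBase n k g) +
      2 * n * ((n + 1) ^ 2 * gapRate n k g) * (Nat.log 2 E + 1) ^ kappa (2 ^ g + 2) := by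
  obtain ⟨L, hL⟩ : ∃ L, Nat.log 2 E + 1 = L := ⟨_, rfl⟩
  have hm : Nat.log 2 (2 * n * E) + 1 ≤ (2 * n + 1) * L := by
    rcases Nat.eq_zero_or_pos (2 * n * E) with h0 | h0
    · rw [h0, Nat.log_zero_right]
      exact Nat.mul_pos (Nat.succ_pos _) (by omega)
    · have h3 : 2 * n * E < 2 ^ (2 * n + (Nat.log 2 E + 1)) := by
        rw [pow_add]
        exact Nat.mul_lt_mul'' Nat.lt_two_pow_self (Nat.lt_pow_succ_log_self one_lt_two E)
      have h4 := Nat.log_lt_of_lt_pow h0.ne' h3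
      rw [hL] at h4
      have : 2 * n ≤ 2 * n * L := Nat.le_mul_of_pos_right _ (by omega)
      rw [add_mul, one_mul]
      omega
  rw [localBound, gapSize, polyLoss, unitLoss, gapBase, gapRate, hL]
  generalize kappa (2 ^ g + 2) = κ
  generalize unitHeight n (k + g * k * n) g = h
  generalize 2 ^ g + 2 = R
  refine gap_arith ?_
  rw [← mul_pow]
  refine Nat.pow_le_pow_left (baseAlg_le_mul ?_) κ
  rw [add_mul]
  exact Nat.add_le_add (Nat.le_mul_of_pos_right h (by omega)) hm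

/-- **The exponents of the points.** -/
theorem points_dichotomy {F : Finset (ℕ × ℕ)} {c : ℕ × ℕ → ℤ} {n k g E₀ : ℕ}
    (hF : Sized F c n k) {x y : ℚ} (hx : SBox g E₀ x) (hy : SBox g E₀ y)
    (hxy : curveValue F c x y = 0) :
    (SBox g (expBound n k g) x ∧ SBox g (expBound n k g) y) ∨
      OnTranslate F c x y ∧ ∃ x₀ y₀, SBox g (expBound n k g) x₀ ∧
        SBox g (expBound n k g) y₀ ∧ OnTranslate F c x₀ y₀ := by
  classical
  have hle : pointBound n k ≤ expBound n k g := Nat.le_add_left _ _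
  rcases F.eq_empty_or_nonempty with rfl | hne
  · have h0 : ∀ x y, curveValue ∅ c x y = 0 := fun x y => sum_empty
    exact Or.inr ⟨⟨1, 0, isCoprime_one_left, fun s _ => h0 _ _⟩, 1, 1,
      ⟨one_ne_zero, fun q _ => by simp⟩, ⟨one_ne_zero, fun q _ => by simp⟩,
      ⟨1, 0, isCoprime_one_left, fun s _ => h0 _ _⟩⟩
  obtain ⟨P, hP⟩ : ∃ P, P = (range (2 ^ g + 1)).filter Nat.Prime := ⟨_, rfl⟩
  obtain ⟨E, hE⟩ : ∃ E, E = P.sup fun q =>
      max (padicValRat q x).natAbs (padicValRat q y).natAbs := ⟨_, rfl⟩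
  have hbox : ∀ {z : ℚ}, SBox g E₀ z → (∀ q, (padicValRat q z).natAbs ≤
      max (padicValRat q x).natAbs (padicValRat q y).natAbs) → SBox g E z := fun {z} hz hzq => by
    refine ⟨hz.1, fun q hq => ⟨(hz.2 q hq).1, ?_⟩⟩
    rcases Nat.lt_or_ge (2 ^ g) q with h | h
    · rw [(hz.2 q hq).1 h]; exact Nat.zero_le _
    · refine (hzq q).trans ?_
      rw [hE]
      exact le_sup (f := fun q => max (padicValRat q x).natAbs (padicValRat q y).natAbs)
        (hP ▸ mem_filter.2 ⟨mem_range.2 (Nat.lt_succ_of_le h), hq⟩)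
  have hxE : SBox g E x := hbox hx fun q => le_max_left _ _
  have hyE : SBox g E y := hbox hy fun q => le_max_right _ _
  by_cases hmon : ∃ a b : ℤ, IsCoprime a b ∧ a.natAbs ≤ n ∧ b.natAbs ≤ n ∧
      (x ^ a * y ^ b).num.natAbs ≤ 2 ^ k ∧ (x ^ a * y ^ b).den ≤ 2 ^ k
  · obtain ⟨a, b, hab, ha, hb, htn, htd⟩ := hmon
    rcases translate_or_small hF hxE hyE hxy hab ha hb htn htd with
      ⟨h1, h2⟩ | ⟨h, x₀, y₀, h1, h2, h3⟩
    · exact Or.inl ⟨h1.mono hle, h2.mono hle⟩
    · exact Or.inr ⟨h, x₀, y₀, h1.mono hle, h2.mono hle, h3⟩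
  have hfix : E ≤ localBound n k g E := by
    conv_lhs => rw [hE]
    refine Finset.sup_le fun q hq => ?_
    rw [hP, mem_filter, mem_range] at hq
    have : Fact q.Prime := ⟨hq.2⟩
    exact max_le_iff.2
      ((local_dichotomy hF hne (Nat.lt_succ_iff.1 hq.1) hxE hyE hxy).resolve_right hmon)
  have hEle : E ≤ expBound n k g := by
    refine (le_of_le_add_mul_log_pow ?_ (hfix.trans (localBound_le n k g E))).trans
      (Nat.le_add_right _ _)
    simp only [kappa]
    omega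
  exact Or.inl ⟨hxE.mono hEle, hyE.mono hEle⟩

/-- Smooth numerator and denominator give some box. -/
theorem exists_sbox {g : ℕ} {x : ℚ} (hx : x ≠ 0) (hn : Smooth g x.num.natAbs)
    (hd : Smooth g x.den) : ∃ E, SBox g E x := by
  refine ⟨x.num.natAbs + x.den, hx, fun q hq => ⟨fun hgq => ?_, ?_⟩⟩
  · rw [padicValRat_def, padicValInt,
      padicValNat.eq_zero_of_not_dvd fun h => (hn q hq h).not_gt hgq,
      padicValNat.eq_zero_of_not_dvd fun h => (hd q hq h).not_gt hgq, sub_self]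
  · have key : ∀ z : ℕ, padicValNat q z ≤ z := fun z => by
      rcases Nat.eq_zero_or_pos z with rfl | hz
      · simp
      · exact (Nat.lt_pow_self hq.one_lt).le.trans (Nat.le_of_dvd hz pow_padicValNat_dvd)
    have h1 := key x.num.natAbs
    have h2 := key x.den
    rw [padicValRat_def, padicValInt]
    omega

/-- A box bounds numerator and denominator. -/
theorem SBox.height_le {g E : ℕ} {x : ℚ} (hx : SBox g E x) :
    Smooth g x.num.natAbs ∧ Smooth g x.den ∧ x.num.natAbs ≤ 2 ^ (g * (E * (2 ^ g + 1))) ∧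
      x.den ≤ 2 ^ (g * (E * (2 ^ g + 1))) := by
  have hsm : ∀ q : ℕ, q.Prime → (q ∣ x.num.natAbs ∨ q ∣ x.den) → q ≤ 2 ^ g := fun q hq h =>
    not_lt.1 fun hlt => padicValRat_ne_zero_of_dvd hx.1 hq h ((hx.2 q hq).1 hlt)
  have hn : Smooth g x.num.natAbs := fun q hq h => hsm q hq (Or.inl h)
  have hd : Smooth g x.den := fun q hq h => hsm q hq (Or.inr h)
  refine ⟨hn, hd, le_of_smooth (Int.natAbs_ne_zero.2 (Rat.num_ne_zero.2 hx.1)) hn fun q hq => ?_,
    le_of_smooth x.den_nz hd fun q hq => ?_⟩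
  · rw [← Nat.factorization_def _ (Nat.prime_of_mem_primeFactors hq)]
    exact (hx.factorization_le (Nat.prime_of_mem_primeFactors hq)).1
  · rw [← Nat.factorization_def _ (Nat.prime_of_mem_primeFactors hq)]
    exact (hx.factorization_le (Nat.prime_of_mem_primeFactors hq)).2

/-- **A translate has infinitely many points.** -/
theorem infinite_of_translate {F : Finset (ℕ × ℕ)} {c : ℕ × ℕ → ℤ} {g E : ℕ} (hg : 1 ≤ g)
    {x y : ℚ} (hx : SBox g E x) (hy : SBox g E y) (h : OnTranslate F c x y) :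
    {z : ℚ × ℚ | (∃ E, SBox g E z.1 ∧ SBox g E z.2) ∧ curveValue F c z.1 z.2 = 0}.Infinite := by
  obtain ⟨a, b, hab, hs⟩ := h
  have : Fact (Nat.Prime 2) := ⟨Nat.prime_two⟩
  have h2 : SBox g 1 (2 : ℚ) := by
    refine ⟨two_ne_zero, fun q hq => ?_⟩
    have : Fact q.Prime := ⟨hq⟩
    rw [show (2 : ℚ) = ((2 : ℕ) : ℚ) by norm_num, padicValRat.of_nat]
    rcases eq_or_ne q 2 with rfl | hne
    · refine ⟨fun h => absurd h (not_lt.2 ?_), by simp⟩
      exact (Nat.le_self_pow (by omega) 2)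
    · rw [padicValNat_primes hne]
      simp
  refine Set.infinite_of_injective_forall_mem
    (f := fun i : ℕ => (x * ((2 : ℚ) ^ i) ^ b, y * ((2 : ℚ) ^ i) ^ (-a))) (fun i i' he => ?_)
    fun i => ?_
  · simp only [Prod.mk.injEq] at he
    have h20 : ∀ (i : ℕ) (e : ℤ), ((2 : ℚ) ^ i) ^ e ≠ 0 := fun i e =>
      zpow_ne_zero _ (pow_ne_zero _ two_ne_zero)
    have e1 := congrArg (padicValRat 2) he.1
    have e2 := congrArg (padicValRat 2) he.2
    have hs2 : padicValRat 2 (2 : ℚ) = 1 := by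
      simpa using padicValRat.self (p := 2) one_lt_two
    rw [padicValRat.mul hx.1 (h20 _ _), padicValRat.mul hx.1 (h20 _ _), padicValRat.zpow,
      padicValRat.zpow, padicValRat.pow, padicValRat.pow, hs2] at e1
    rw [padicValRat.mul hy.1 (h20 _ _), padicValRat.mul hy.1 (h20 _ _), padicValRat.zpow,
      padicValRat.zpow, padicValRat.pow, padicValRat.pow, hs2] at e2
    simp only [mul_one, add_right_inj, mul_eq_mul_left_iff, Nat.cast_inj] at e1 e2
    rcases e1 with e1 | e1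
    · exact e1
    rcases e2 with e2 | e2
    · exact e2
    rw [neg_eq_zero] at e2
    rw [e1, e2] at hab
    exact absurd hab not_isCoprime_zero_zero
  · have hi : ∀ e : ℤ, SBox g (e.natAbs * (i * 1)) (((2 : ℚ) ^ i) ^ e) := fun e => by
      rw [← zpow_natCast (2 : ℚ) i]
      simpa using (h2.zpow (i : ℤ)).zpow e
    refine ⟨⟨E + (b.natAbs * (i * 1) + a.natAbs * (i * 1)), ?_, ?_⟩,
      hs _ (pow_ne_zero _ two_ne_zero)⟩
    · exact (hx.mul (hi b)).mono (by omega)
    · exact (hy.mul (hi (-a))).mono (by rw [Int.natAbs_neg]; omega)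

end FA.EffectiveTorusCurves

end
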