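import Fermat.Agent.EffectiveTorusCurves.Roots
import Fermat.Agent.BakerExplicit.SUnitGenerators
import Fermat.Agent.BakerExplicit.Applications
import Fermat.Agent.BakerExplicit.PadicApplications
import Mathlib.RingTheory.Polynomial.Content

/-!
# A polynomial at a number composed of small primes, at a small prime

By the `p`-adic theorem of Baker the value, if not zero, has exponent of `p` at most a power of the
logarithm of the exponents in the argument.
-/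

set_option autoImplicit false

noncomputable section

namespace FA.EffectiveTorusCurves

open Finset Polynomial NumberField Module FA.Brumer FA.BakerExplicit
open BakerExplicit.EffectiveSUnits

/-- `x` is composed of primes up to `2 ^ g`, with exponents at most `E`. -/
def SBox (g E : ℕ) (x : ℚ) : Prop :=
  x ≠ 0 ∧ ∀ q : ℕ, q.Prime → (2 ^ g < q → padicValRat q x = 0) ∧ (padicValRat q x).natAbs ≤ E

theorem SBox.mono {g E E' : ℕ} {x : ℚ} (h : SBox g E x) (hE : E ≤ E') : SBox g E' x :=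
  ⟨h.1, fun q hq => ⟨(h.2 q hq).1, (h.2 q hq).2.trans hE⟩⟩

theorem SBox.mul {g E E' : ℕ} {x y : ℚ} (hx : SBox g E x) (hy : SBox g E' y) :
    SBox g (E + E') (x * y) := by
  refine ⟨mul_ne_zero hx.1 hy.1, fun q hq => ?_⟩
  have : Fact q.Prime := ⟨hq⟩
  obtain ⟨hx1, hx2⟩ := hx.2 q hq
  obtain ⟨hy1, hy2⟩ := hy.2 q hq
  rw [padicValRat.mul hx.1 hy.1]
  exact ⟨fun h => by rw [hx1 h, hy1 h, add_zero],
    (Int.natAbs_add_le _ _).trans (Nat.add_le_add hx2 hy2)⟩

theorem SBox.zpow {g E : ℕ} {x : ℚ} (hx : SBox g E x) (a : ℤ) :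
    SBox g (a.natAbs * E) (x ^ a) := by
  refine ⟨zpow_ne_zero _ hx.1, fun q hq => ?_⟩
  have : Fact q.Prime := ⟨hq⟩
  obtain ⟨hx1, hx2⟩ := hx.2 q hq
  rw [padicValRat.zpow]
  exact ⟨fun h => by rw [hx1 h, mul_zero], by
    rw [Int.natAbs_mul]; exact Nat.mul_le_mul_left _ hx2⟩

/-- The exponents in numerator and denominator. -/
theorem SBox.factorization_le {g E : ℕ} {x : ℚ} (hx : SBox g E x) {q : ℕ} (hq : q.Prime) :
    x.num.natAbs.factorization q ≤ E ∧ x.den.factorization q ≤ E := by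
  have := (hx.2 q hq).2
  rw [padicValRat_def, padicValInt] at this
  rw [Nat.factorization_def _ hq, Nat.factorization_def _ hq]
  rcases Nat.eq_zero_or_pos (padicValNat q x.den) with h | h
  · omega
  have h1 : padicValNat q x.num.natAbs = 0 := padicValNat.eq_zero_of_not_dvd fun hd =>
    hq.not_dvd_one (x.reduced ▸ Nat.dvd_gcd hd (dvd_of_one_le_padicValNat h))
  omega

/-- A prime of numerator or denominator has non-zero exponent. -/
theorem padicValRat_ne_zero_of_dvd {x : ℚ} (hx : x ≠ 0) {q : ℕ} (hq : q.Prime)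
    (h : q ∣ x.num.natAbs ∨ q ∣ x.den) : padicValRat q x ≠ 0 := by
  have : Fact q.Prime := ⟨hq⟩
  rw [padicValRat_def, padicValInt]
  have hn : x.num.natAbs ≠ 0 := Int.natAbs_ne_zero.2 (Rat.num_ne_zero.2 hx)
  rcases h with h | h
  · have h1 := one_le_padicValNat_of_dvd hn h
    have h2 : padicValNat q x.den = 0 := padicValNat.eq_zero_of_not_dvd fun hd =>
      hq.not_dvd_one (x.reduced ▸ Nat.dvd_gcd h hd)
    omega
  · have h1 := one_le_padicValNat_of_dvd x.den_nz h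
    have h2 : padicValNat q x.num.natAbs = 0 := padicValNat.eq_zero_of_not_dvd fun hd =>
      hq.not_dvd_one (x.reduced ▸ Nat.dvd_gcd hd h)
    omega

/-- The size of the numbers in the form. -/
def unitHeight (n k g : ℕ) : ℕ := 2 ^ (3 * (g * n) + 1) * (rootSize n k + g + 1)

/-- The loss at a root of absolute value `1`. -/
def unitLoss (n k g m : ℕ) : ℕ :=
  n + 1 + 2 * baseAlg (2 ^ g + 2) n (unitHeight n k g) m ^ kappa (2 ^ g + 2)

variable {p : ℕ} [hp : Fact p.Prime]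

/-- **Baker's theorem at a root.** -/
theorem unit_root_distance {K : Type*} [Field K] [NumberField K] {g m n k : ℕ} (hpg : p ≤ 2 ^ g)
    (hd : finrank ℚ K ≤ n) (ψ : K →+* ℂ_[p]) {H : ℤ[X]} (hn : H.natDegree ≤ n)
    (hk : ∀ i, (H.coeff i).natAbs ≤ 2 ^ k) (hprim : ∃ i, ¬ (p : ℤ) ∣ H.coeff i) {θ : K}
    (hθ' : eval₂ (Int.castRingHom K) θ H = 0) (hψ : ‖ψ θ‖ = 1) {t : ℚ} (ht : SBox g (2 ^ m) t)
    (ht0 : padicValRat p t = 0) (hne : (t : K) ≠ θ) :
    ((p : ℝ) ^ unitLoss n k g m)⁻¹ ≤ ‖(t : ℂ_[p]) - ψ θ‖ := by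
  classical
  have hθ : aeval θ H = 0 := by rw [aeval_def, algebraMap_int_eq]; exact hθ'
  have hn1 : 1 ≤ n := le_trans finrank_pos hd
  have hp0 : (0 : ℝ) < p := prime_pos p
  obtain ⟨a, b, hab, ha1, hb1, hsize⟩ := unit_quotient hn hk hprim hθ ψ hψ
  obtain ⟨S, hS⟩ : ∃ S, S = ((Icc 1 (2 ^ g)).filter Nat.Prime).erase p := ⟨_, rfl⟩
  have hSprime : ∀ q ∈ S, q.Prime ∧ q ≤ 2 ^ g ∧ q ≠ p := fun q hq => by
    rw [hS, mem_erase, mem_filter, mem_Icc] at hq
    exact ⟨hq.2.2, hq.2.1.2, hq.1⟩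
  have hScard : S.card ≤ 2 ^ g := by
    rw [hS]
    exact (card_erase_le.trans (card_filter_le _ _)).trans_eq (by simp)
  have hsub : t.num.natAbs.primeFactors ⊆ S ∧ t.den.primeFactors ⊆ S := by
    have key : ∀ q : ℕ, q.Prime → (q ∣ t.num.natAbs ∨ q ∣ t.den) → q ∈ S := fun q hq hqd => by
      have hv := padicValRat_ne_zero_of_dvd ht.1 hq hqd
      rw [hS, mem_erase, mem_filter, mem_Icc]
      exact ⟨fun e => hv (e ▸ ht0), ⟨hq.one_le, not_lt.1 fun h => hv ((ht.2 q hq).1 h)⟩, hq⟩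
    exact ⟨fun q hq => key q (Nat.prime_of_mem_primeFactors hq)
        (Or.inl (Nat.dvd_of_mem_primeFactors hq)),
      fun q hq => key q (Nat.prime_of_mem_primeFactors hq)
        (Or.inr (Nat.dvd_of_mem_primeFactors hq))⟩
  have hnat1 : ∀ z : ℕ, z ≠ 0 → z.primeFactors ⊆ S → ‖(z : ℂ_[p])‖ = 1 := fun z hz hzs => by
    rw [Brumer.norm_natCast p, Padic.norm_natCast_eq_one_iff, hp.out.coprime_iff_not_dvd]
    exact fun hd => (hSprime p (hzs (Nat.mem_primeFactors.2 ⟨hp.out, hd, hz⟩))).2.2 rfl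
  have hnum : t.num.natAbs ≠ 0 := Int.natAbs_ne_zero.2 (Rat.num_ne_zero.2 ht.1)
  obtain ⟨X, hX⟩ : ∃ X : 𝓞 K, X = (t.num : 𝓞 K) * b := ⟨_, rfl⟩
  obtain ⟨Y, hY⟩ : ∃ Y : 𝓞 K, Y = (t.den : 𝓞 K) * a := ⟨_, rfl⟩
  have hnum1 : ‖(t.num : ℂ_[p])‖ = 1 := by
    have h := hnat1 _ hnum hsub.1
    rcases Int.natAbs_eq t.num with e | e
    · rw [e, Int.cast_natCast]; exact h
    · rw [e, Int.cast_neg, Int.cast_natCast, norm_neg]; exact h
  have hden1 := hnat1 _ t.den_nz hsub.2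
  have hY1 : ‖ψ (Y : K)‖ = 1 := by
    simp only [hY, map_mul, map_natCast, norm_mul, hden1, ha1, one_mul]
  have hX1 : ‖ψ (X : K)‖ = 1 := by
    simp only [hX, map_mul, map_intCast, norm_mul, hnum1, hb1, one_mul]
  have hdist : ‖(t : ℂ_[p]) - ψ θ‖ = ‖ψ ((X - Y : 𝓞 K) : K)‖ := by
    have e1 : ψ ((X - Y : 𝓞 K) : K) =
        ((t : ℂ_[p]) - ψ θ) * ((t.den : ℂ_[p]) * ψ (b : K)) := by
      simp only [hX, hY, map_sub, map_mul, map_intCast, map_natCast]
      rw [show ψ (a : K) = ψ θ * ψ (b : K) by rw [hab, map_mul], Rat.cast_def]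
      field_simp [show (t.den : ℂ_[p]) ≠ 0 from Nat.cast_ne_zero.2 t.den_nz]
    rw [e1, norm_mul, norm_mul, hden1, hb1, one_mul, mul_one]
  have hXY : X ≠ Y := fun e => hne (by
    have e1 := congrArg (fun z : 𝓞 K => (z : K)) e
    simp only [hX, hY, map_mul, map_intCast, map_natCast] at e1
    have hb0 : (b : K) ≠ 0 := fun h0 => by
      rw [h0, map_zero, norm_zero] at hb1
      exact zero_ne_one hb1
    rw [show algebraMap (𝓞 K) K a = θ * algebraMap (𝓞 K) K b from hab, ← mul_assoc] at e1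
    rw [Rat.cast_def, div_eq_iff (Nat.cast_ne_zero.2 t.den_nz)]
    rw [mul_comm θ]
    exact mul_right_cancel₀ hb0 e1)
  obtain ⟨N, hN1, hNle, hN⟩ := exists_exponent (p := p) hd ψ
  obtain ⟨e, -⟩ : ∃ e : Fin S.card ≃ S, e = S.equivFin.symm := ⟨_, rfl⟩
  obtain ⟨A, hA⟩ : ∃ A : Fin (S.card + 2) → 𝓞 K, A = Fin.cons (b ^ (2 * N))
      (Fin.cons (a ^ (2 * N)) fun i => ((e i : ℕ) : 𝓞 K) ^ (2 * N)) := ⟨_, rfl⟩
  obtain ⟨u, hu⟩ : ∃ u : Fin (S.card + 2) → ℕ, u = Fin.cons 1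
      (Fin.cons 0 fun i => t.num.natAbs.factorization (e i)) := ⟨_, rfl⟩
  obtain ⟨v, hv⟩ : ∃ v : Fin (S.card + 2) → ℕ, v = Fin.cons 0
      (Fin.cons 1 fun i => t.den.factorization (e i)) := ⟨_, rfl⟩
  have hprod : ∀ z : ℕ, z ≠ 0 → z.primeFactors ⊆ S →
      ∏ i, (((e i : ℕ) : 𝓞 K) ^ (2 * N)) ^ z.factorization (e i) = (z : 𝓞 K) ^ (2 * N) :=
    fun z hz hzs => by
      conv_rhs => rw [prod_powers_eq hz hzs, ← e.prod_comp, Nat.cast_prod, ← prod_pow]
      exact prod_congr rfl fun i _ => by push_cast; exact pow_right_comm _ _ _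
  have hPX : ∏ i, A i ^ u i = X ^ (2 * N) := by
    rw [Fin.prod_univ_succ, Fin.prod_univ_succ]
    simp only [hA, hu, Fin.cons_zero, Fin.cons_succ, pow_one, pow_zero, one_mul,
      hprod _ hnum hsub.1]
    rw [hX, mul_pow, mul_comm]
    congr 1
    rw [pow_mul, pow_mul]
    congr 1
    rw [← Int.cast_natCast, ← Int.cast_pow, ← Int.cast_pow, Int.natAbs_sq]
  have hPY : ∏ i, A i ^ v i = Y ^ (2 * N) := by
    rw [Fin.prod_univ_succ, Fin.prod_univ_succ]
    simp only [hA, hv, Fin.cons_zero, Fin.cons_succ, pow_one, pow_zero, one_mul,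
      hprod _ t.den_nz hsub.2]
    rw [hY, mul_pow, mul_comm]
  have hgeom : ‖ψ ((X ^ (2 * N) - Y ^ (2 * N) : 𝓞 K) : K)‖ ≤ ‖ψ ((X - Y : 𝓞 K) : K)‖ := by
    obtain ⟨w, hw⟩ := sub_dvd_pow_sub_pow X Y (2 * N)
    exact norm_map_le_of_dvd ψ (Dvd.intro w hw.symm)
  rw [hdist, unitLoss]
  obtain ⟨M, hM⟩ : ∃ M, M = 2 * baseAlg (2 ^ g + 2) n (unitHeight n k g) m ^ kappa (2 ^ g + 2) :=
    ⟨_, rfl⟩
  rw [← hM]
  by_cases hne2 : X ^ (2 * N) = Y ^ (2 * N)
  · have hYK : (Y : K) ≠ 0 := fun h0 => by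
      rw [h0, map_zero, norm_zero] at hY1
      exact zero_ne_one hY1
    have hz : ((X : K) / Y) ^ (2 * N) = 1 := by
      rw [div_pow, div_eq_one_iff_eq (pow_ne_zero _ hYK), ← map_pow, ← map_pow, hne2]
    obtain ⟨ζ, hζ⟩ : ∃ ζ : 𝓞 K, (ζ : K) = (X : K) / Y :=
      ⟨⟨(X : K) / Y, IsIntegral.of_pow (show 0 < 2 * N by omega) (hz ▸ isIntegral_one)⟩, rfl⟩
    have hXζ : X = ζ * Y := RingOfIntegers.coe_injective (by
      simp only [RingOfIntegers.coe_eq_algebraMap] at hζ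
      simp only [map_mul, hζ, div_mul_cancel₀ _ hYK])
    have hne1 : ζ - 1 ≠ 0 := fun h0 => hXY (by rw [hXζ, sub_eq_zero.1 h0, one_mul])
    have h1 := inv_pow_le_norm_map (p := p) (s := 1) hd ψ hne1 fun σ => by
      simp only [RingOfIntegers.coe_eq_algebraMap] at hζ
      simp only [map_sub, map_one, hζ]
      refine (norm_sub_le _ _).trans_eq ?_
      rw [norm_one, pow_one, Complex.norm_eq_one_of_pow_eq_one (by rw [← map_pow, hz, map_one])
        (show 2 * N ≠ 0 by omega)]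
      norm_num
    rw [hXζ, show ζ * Y - Y = (ζ - 1) * Y by ring]
    simp only [map_mul, norm_mul, hY1, mul_one]
    refine le_trans ?_ h1
    rw [one_mul]
    exact inv_anti₀ (by positivity) (pow_le_pow_right₀ (one_lt_prime p).le (by omega))
  refine le_trans ?_ hgeom
  have hh : ∀ i (σ : K →+* ℂ), ‖σ (A i : K)‖ ≤ (2 : ℝ) ^ unitHeight n k g := by
    have hN2 : 2 * N ≤ 2 ^ (3 * (g * n) + 1) := by
      rw [pow_succ', show 3 * (g * n) = g * (3 * n) by ring, pow_mul 2 g]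
      exact Nat.mul_le_mul_left 2 (hNle.trans (Nat.pow_le_pow_left hpg _))
    have key : ∀ {z : 𝓞 K} {s : ℕ}, s ≤ rootSize n k + g + 1 → ∀ σ : K →+* ℂ,
        ‖σ (z : K)‖ ≤ (2 : ℝ) ^ s → ‖σ ((z ^ (2 * N) : 𝓞 K) : K)‖ ≤ (2 : ℝ) ^ unitHeight n k g :=
      fun {z s} hs σ hzs => by
        simp only [map_pow, norm_pow]
        refine (pow_le_pow_left₀ (norm_nonneg _) hzs _).trans ?_
        rw [← pow_mul]
        exact pow_le_pow_right₀ one_le_two
          ((Nat.mul_le_mul hs hN2).trans_eq (by rw [unitHeight, mul_comm]))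
    intro i σ
    rw [hA]
    refine Fin.cases ?_ (fun i => Fin.cases ?_ (fun i => ?_) i) i
    · exact key (by omega) σ (hsize σ).2
    · exact key (by omega) σ (hsize σ).1
    · refine key (s := g) (by omega) σ ?_
      simp only [map_natCast, Complex.norm_natCast]
      exact_mod_cast (hSprime _ (e i).2).2.1
  have hA1 : ∀ i, ‖ψ (A i : K) - 1‖ ≤ rad p := by
    have key : ∀ z : 𝓞 K, ‖ψ (z : K)‖ = 1 → ‖ψ ((z ^ (2 * N) : 𝓞 K) : K) - 1‖ ≤ rad p :=
      fun z hz => by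
        have := hN (z ^ 2) (by simp only [map_pow, norm_pow, hz, one_pow])
        simp only [pow_mul, map_pow] at this ⊢
        exact this
    intro i
    rw [hA]
    refine Fin.cases ?_ (fun i => Fin.cases ?_ (fun i => ?_) i) i
    · exact key b hb1
    · exact key a ha1
    · refine key _ ?_
      simp only [map_natCast]
      have hq := hSprime _ (e i).2
      rw [Brumer.norm_natCast p, Padic.norm_natCast_eq_one_iff, Nat.coprime_primes hp.out hq.1]
      exact hq.2.2.symm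
  have hbound : ∀ {w : Fin (S.card + 2) → ℕ} {z : ℕ} {c d : ℕ}, c ≤ 1 → d ≤ 1 →
      (∀ q : ℕ, q.Prime → z.factorization q ≤ 2 ^ m) →
      w = Fin.cons c (Fin.cons d fun i => z.factorization (e i)) → ∀ i, w i ≤ 2 ^ m := by
    intro w z c d hc hd' hz hw i
    have := Nat.one_le_two_pow (n := m)
    rw [hw]
    refine Fin.cases ?_ (fun i => Fin.cases ?_ (fun i => ?_) i) i
    · rw [Fin.cons_zero]; omega
    · rw [Fin.cons_succ, Fin.cons_zero]; omega
    · rw [Fin.cons_succ, Fin.cons_succ]; exact hz _ (hSprime _ (e i).2).1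
  refine le_of_not_gt fun hlt => ?_
  have hle := PadicAlgebraic.padic_baker_algebraic_bound hd ψ (h := unitHeight n k g) (m := m)
    (Nat.one_le_iff_ne_zero.2 (by rw [unitHeight]; positivity)) hh hA1 (u := u) (v := v)
    (by rw [hPX, hPY]; exact hne2)
    (hbound le_rfl zero_le_one (fun q hq => (ht.factorization_le hq).1) hu)
    (hbound zero_le_one le_rfl (fun q hq => (ht.factorization_le hq).2) hv)
    (M := n + 1 + M) (by rw [hPX, hPY, ← map_sub, ← map_sub]; exact hlt.le)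
  have hmono : baseAlg (S.card + 2) n (unitHeight n k g) m ^ kappa (S.card + 2) ≤
      baseAlg (2 ^ g + 2) n (unitHeight n k g) m ^ kappa (2 ^ g + 2) := by
    have hsq : (S.card + 2) ^ 2 ≤ (2 ^ g + 2) ^ 2 := Nat.pow_le_pow_left (by omega) 2
    refine (Nat.pow_le_pow_left ?_ _).trans (Nat.pow_le_pow_right ?_ ?_)
    · exact Nat.mul_le_mul_right _ (Nat.mul_le_mul_right _ (Nat.pow_le_pow_right two_pos
        (by omega)))
    · exact Nat.mul_pos (Nat.mul_pos (Nat.two_pow_pos _) hn1) (Nat.lt_of_lt_of_le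
        (show 0 < unitHeight n k g by rw [unitHeight]; positivity) (Nat.le_add_right _ _))
    · simp only [kappa]; omega
  omega

/-- The loss for a polynomial. -/
def polyLoss (n k g m : ℕ) : ℕ := 2 * (k + g * k * n) + k + n * unitLoss n (k + g * k * n) g m

/-- A product of distances. -/
theorem pow_le_norm_prod {x : ℂ_[p]} {r : ℝ} (hr : 0 ≤ r) (R : Multiset ℂ_[p]) :
    (∀ θ ∈ R, r ≤ ‖x - θ‖) → r ^ Multiset.card R ≤ ‖(R.map fun θ => x - θ).prod‖ := by
  induction R using Multiset.induction with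
  | empty => simp
  | cons θ R ih =>
    intro h
    rw [Multiset.card_cons, pow_succ', Multiset.map_cons, Multiset.prod_cons, norm_mul]
    exact mul_le_mul (h θ (Multiset.mem_cons_self θ R))
      (ih fun z hz => h z (Multiset.mem_cons_of_mem hz)) (pow_nonneg hr _) (norm_nonneg _)

/-- **The value at an argument of absolute value `1`.** -/
theorem primitive_lower {g m n k : ℕ} (hpg : p ≤ 2 ^ g) {H : ℤ[X]} (hn : H.natDegree ≤ n)
    (hk : ∀ i, (H.coeff i).natAbs ≤ 2 ^ k) (hprim : ∃ i, ¬ (p : ℤ) ∣ H.coeff i) {t : ℚ}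
    (ht : SBox g (2 ^ m) t) (ht0 : padicValRat p t = 0) (hne : aeval t H ≠ 0) :
    ((p : ℝ) ^ (k + n * unitLoss n k g m))⁻¹ ≤ ‖((aeval t H : ℚ) : ℂ_[p])‖ := by
  have hp1 := one_lt_prime p
  obtain ⟨P, hP⟩ : ∃ P, P = H.map (Int.castRingHom ℂ_[p]) := ⟨_, rfl⟩
  have hH0 : H ≠ 0 := fun h => hne (by rw [h, map_zero])
  have hPd : P.natDegree = H.natDegree :=
    hP ▸ natDegree_map_eq_of_injective (Int.cast_injective) H
  have hval : ((aeval t H : ℚ) : ℂ_[p]) = P.eval (t : ℂ_[p]) := by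
    rw [hP, eval_map, aeval_eq_sum_range, eval₂_eq_sum_range]
    push_cast [zsmul_eq_mul]
    rfl
  have hsplit : P.Splits := IsAlgClosed.splits P
  have hroot : ∀ θ ∈ P.roots, ((p : ℝ) ^ unitLoss n k g m)⁻¹ ≤ ‖(t : ℂ_[p]) - θ‖ := by
    intro θ hθ
    have hθ' : eval₂ (Int.castRingHom ℂ_[p]) θ H = 0 := by
      rw [hP, mem_roots', IsRoot, eval_map] at hθ
      exact hθ.2
    have hx1 : ‖(t : ℂ_[p])‖ = 1 := by rw [norm_ratCast t ht.1, ht0, neg_zero, zpow_zero]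
    rcases ne_or_eq ‖θ‖ 1 with h1 | h1
    · refine le_trans (inv_le_one_of_one_le₀ (one_le_pow₀ hp1.le)) ?_
      rw [sub_eq_add_neg, IsUltrametricDist.norm_add_eq_max_of_norm_ne_norm
        (by rw [norm_neg, hx1]; exact h1.symm), hx1]
      exact le_max_left _ _
    have hθQ : IsIntegral ℚ θ := by
      refine isAlgebraic_iff_isIntegral.1 ⟨H.map (algebraMap ℤ ℚ), ?_, ?_⟩
      · exact (Polynomial.map_ne_zero_iff (algebraMap ℤ ℚ).injective_int).2 hH0
      · rw [aeval_def, eval₂_map]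
        exact (congrArg (fun f => eval₂ f θ H) (RingHom.ext_int _ _)).trans hθ'
    obtain ⟨K, hK⟩ : ∃ K : IntermediateField ℚ ℂ_[p], K = IntermediateField.adjoin ℚ {θ} :=
      ⟨_, rfl⟩
    have : FiniteDimensional ℚ K := hK ▸ IntermediateField.adjoin.finiteDimensional hθQ
    have : NumberField K := ⟨⟩
    have hdeg : finrank ℚ K ≤ n := by
      rw [hK, IntermediateField.adjoin.finrank hθQ]
      refine (natDegree_le_of_dvd (minpoly.dvd ℚ θ (p := H.map (algebraMap ℤ ℚ))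
        (by rw [aeval_def, eval₂_map]
            exact (congrArg (fun f => eval₂ f θ H) (RingHom.ext_int _ _)).trans hθ'))
        ((Polynomial.map_ne_zero_iff (algebraMap ℤ ℚ).injective_int).2 hH0)).trans ?_
      exact natDegree_map_le.trans hn
    obtain ⟨z, hz⟩ : ∃ z : K, (z : ℂ_[p]) = θ :=
      ⟨⟨θ, hK ▸ IntermediateField.mem_adjoin_simple_self ℚ θ⟩, rfl⟩
    obtain ⟨ψ, hψ⟩ : ∃ ψ : K →+* ℂ_[p], ∀ w : K, ψ w = (w : ℂ_[p]) :=
      ⟨K.val.toRingHom, fun _ => rfl⟩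
    rw [← hz, ← hψ] at h1 ⊢
    refine unit_root_distance hpg hdeg ψ hn hk hprim ?_ h1 ht ht0 fun he => hne ?_
    · refine ψ.injective ?_
      rw [map_zero, hom_eval₂, hψ, hz]
      exact (congrArg (fun f => eval₂ f θ H) (RingHom.ext_int _ _)).trans hθ'
    · have h2 : (θ : ℂ_[p]) = ((t : ℚ) : ℂ_[p]) := by rw [← hz, ← hψ, ← he, map_ratCast]
      have h3 : P.eval (t : ℂ_[p]) = 0 := by rw [← h2, hP, eval_map]; exact hθ'
      rw [← hval, Rat.cast_eq_zero] at h3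
      exact h3
  rw [hval, hsplit.eq_prod_roots, eval_mul, eval_C, eval_multiset_prod, Multiset.map_map,
    norm_mul]
  simp only [Function.comp_def, eval_sub, eval_X, eval_C]
  rw [pow_add, mul_inv]
  refine mul_le_mul ?_ ?_ (by positivity) (norm_nonneg _)
  · rw [hP, leadingCoeff_map_of_injective Int.cast_injective, eq_intCast]
    exact inv_pow_le_norm (leadingCoeff_ne_zero.2 hH0)
      ((hk _).trans (Nat.pow_le_pow_left hp.out.two_le k))
  · refine le_trans ?_ (pow_le_norm_prod (by positivity) P.roots hroot)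
    rw [inv_pow, ← pow_mul]
    refine inv_anti₀ (by positivity) (pow_le_pow_right₀ hp1.le ?_)
    rw [mul_comm n]
    exact Nat.mul_le_mul_left _ ((card_roots' P).trans (hPd.trans_le hn))

/-- **The exponent of `p` in a value.** -/
theorem poly_lower {g m n k : ℕ} (hpg : p ≤ 2 ^ g) {P : ℤ[X]} (hn : P.natDegree ≤ n)
    (hk : ∀ i, (P.coeff i).natAbs ≤ 2 ^ k) (hc0 : P.coeff 0 ≠ 0) {t : ℚ}
    (ht : SBox g (2 ^ m) t) (hne : aeval t P ≠ 0) :
    ((p : ℝ) ^ polyLoss n k g m)⁻¹ ≤ ‖((aeval t P : ℚ) : ℂ_[p])‖ := by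
  have hp1 := one_lt_prime p
  have hp0 : (0 : ℝ) < p := prime_pos p
  obtain ⟨d, hd⟩ : ∃ d, P.natDegree = d := ⟨_, rfl⟩
  obtain ⟨s, hs⟩ : ∃ s, padicValRat p t = s := ⟨_, rfl⟩
  have hP0 : P ≠ 0 := fun h => hc0 (by rw [h, coeff_zero])
  have hlow : ∀ c : ℤ, c ≠ 0 → c.natAbs ≤ 2 ^ k → ((p : ℝ) ^ k)⁻¹ ≤ ‖(c : ℂ_[p])‖ :=
    fun c hc hck => inv_pow_le_norm hc (hck.trans (Nat.pow_le_pow_left hp.out.two_le k))
  have hx : ‖(t : ℂ_[p])‖ = (p : ℝ) ^ (-s) := by rw [norm_ratCast t ht.1, hs]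
  have hval : ((aeval t P : ℚ) : ℂ_[p]) =
      ∑ i ∈ range (d + 1), (P.coeff i : ℂ_[p]) * (t : ℂ_[p]) ^ i := by
    rw [aeval_eq_sum_range, hd]
    push_cast [zsmul_eq_mul]
    rfl
  have hkl : ((p : ℝ) ^ polyLoss n k g m)⁻¹ ≤ ((p : ℝ) ^ k)⁻¹ :=
    inv_anti₀ (by positivity) (pow_le_pow_right₀ hp1.le (by rw [polyLoss]; omega))
  have hterm : ∀ i, ‖(P.coeff i : ℂ_[p]) * (t : ℂ_[p]) ^ i‖ ≤ ‖(t : ℂ_[p])‖ ^ i := fun i => by
    rw [norm_mul, norm_pow]
    exact mul_le_of_le_one_left (by positivity) (norm_intCast_le_one _)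
  rcases lt_or_ge (k : ℤ) s with hks | hks
  · refine hkl.trans ?_
    rw [hval, sum_range_succ']
    simp only [pow_zero, mul_one]
    have hlt : ‖∑ i ∈ range d, (P.coeff (i + 1) : ℂ_[p]) * (t : ℂ_[p]) ^ (i + 1)‖ <
        ‖(P.coeff 0 : ℂ_[p])‖ := by
      refine lt_of_le_of_lt (IsUltrametricDist.norm_sum_le_of_forall_le_of_nonneg (norm_nonneg _)
        fun i _ => (hterm _).trans (pow_le_of_le_one (norm_nonneg _) ?_ i.succ_ne_zero)) ?_
      · rw [hx]; exact zpow_le_one_of_nonpos₀ hp1.le (by omega)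
      · refine lt_of_lt_of_le ?_ (hlow _ hc0 (hk 0))
        rw [hx, ← zpow_natCast, ← zpow_neg]
        exact zpow_lt_zpow_right₀ hp1 (by omega)
    rw [IsUltrametricDist.norm_add_eq_max_of_norm_ne_norm hlt.ne, max_eq_right hlt.le]
    exact hlow _ hc0 (hk 0)
  rcases lt_or_ge s (-(k : ℤ)) with hsk | hsk
  · refine hkl.trans ?_
    have hx1 : 1 ≤ ‖(t : ℂ_[p])‖ := by rw [hx]; exact one_le_zpow₀ hp1.le (by omega)
    rcases Nat.eq_zero_or_pos d with rfl | hdpos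
    · rw [hval]
      simpa using hlow _ hc0 (hk 0)
    have hlead : ((p : ℝ) ^ k)⁻¹ ≤ ‖(P.coeff d : ℂ_[p])‖ :=
      hlow _ (hd ▸ leadingCoeff_ne_zero.2 hP0) (hk d)
    rw [hval, sum_range_succ]
    have hlt : ‖∑ i ∈ range d, (P.coeff i : ℂ_[p]) * (t : ℂ_[p]) ^ i‖ <
        ‖(P.coeff d : ℂ_[p]) * (t : ℂ_[p]) ^ d‖ := by
      refine lt_of_le_of_lt (IsUltrametricDist.norm_sum_le_of_forall_le_of_nonneg
        (show (0 : ℝ) ≤ ‖(t : ℂ_[p])‖ ^ (d - 1) by positivity)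
        fun i hi => (hterm i).trans (pow_le_pow_right₀ hx1 (by have := mem_range.1 hi; omega))) ?_
      rw [norm_mul, norm_pow]
      conv_rhs => rw [show d = (d - 1) + 1 by omega, pow_succ, ← mul_assoc,
        mul_comm ‖(P.coeff _ : ℂ_[p])‖, mul_assoc]
      refine lt_mul_of_one_lt_right (pow_pos (lt_of_lt_of_le one_pos hx1) _) ?_
      rw [show d - 1 + 1 = d by omega]
      refine lt_of_lt_of_le ?_ (mul_le_mul_of_nonneg_right hlead (norm_nonneg _))
      rw [hx, ← zpow_natCast, ← zpow_neg, ← zpow_add₀ hp0.ne', ← zpow_zero (p : ℝ)]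
      exact zpow_lt_zpow_right₀ hp1 (by omega)
    rw [IsUltrametricDist.norm_add_eq_max_of_norm_ne_norm hlt.ne, max_eq_right hlt.le, norm_mul,
      norm_pow]
    exact hlead.trans (le_mul_of_one_le_right (norm_nonneg _) (one_le_pow₀ hx1))
  -- the transformed polynomial
  obtain ⟨a, ha⟩ : ∃ a, a = s.toNat := ⟨_, rfl⟩
  obtain ⟨b, hb⟩ : ∃ b, b = (-s).toNat := ⟨_, rfl⟩
  obtain ⟨Q, hQ⟩ : ∃ Q : ℤ[X], Q = ∑ i ∈ range (d + 1),
      C (P.coeff i * (p : ℤ) ^ (a * i + b * (d - i))) * X ^ i := ⟨_, rfl⟩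
  have hQc : ∀ i, Q.coeff i =
      if i ≤ d then P.coeff i * (p : ℤ) ^ (a * i + b * (d - i)) else 0 := fun i => by
    rw [hQ, finsetSum_coeff]
    simp only [coeff_C_mul_X_pow, sum_ite_eq, mem_range, Nat.lt_succ_iff]
  obtain ⟨k', hk'⟩ : ∃ k', k' = k + g * k * n := ⟨_, rfl⟩
  have hQk : ∀ i, (Q.coeff i).natAbs ≤ 2 ^ k' := fun i => by
    rw [hQc]
    split_ifs with hi
    · rw [Int.natAbs_mul, Int.natAbs_pow, Int.natAbs_natCast, hk', pow_add 2 k, mul_assoc g,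
        pow_mul 2 g]
      refine Nat.mul_le_mul (hk i) ((Nat.pow_le_pow_left hpg _).trans
        (Nat.pow_le_pow_right (Nat.two_pow_pos g) ?_))
      have h1 : a ≤ k ∧ b ≤ k := ⟨by omega, by omega⟩
      have h2 : a * i + b * (d - i) ≤ k * i + k * (d - i) :=
        Nat.add_le_add (Nat.mul_le_mul_right i h1.1) (Nat.mul_le_mul_right _ h1.2)
      rw [← Nat.mul_add, Nat.add_sub_cancel' hi] at h2
      exact h2.trans (Nat.mul_le_mul_left k (hd ▸ hn))
    · exact Nat.zero_le _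
  have hQn : Q.natDegree ≤ n := natDegree_le_iff_coeff_eq_zero.2 fun i hi => by
    rw [hQc, if_neg (by omega)]
  have hQ0 : Q.coeff 0 ≠ 0 := by
    rw [hQc, if_pos (Nat.zero_le d)]
    exact mul_ne_zero hc0 (pow_ne_zero _ (Nat.cast_ne_zero.2 hp.out.ne_zero))
  obtain ⟨t', ht'⟩ : ∃ t' : ℚ, t' = t * (p : ℚ) ^ (-s) := ⟨_, rfl⟩
  have hpQ : (p : ℚ) ≠ 0 := Nat.cast_ne_zero.2 hp.out.ne_zero
  have hv : ∀ q : ℕ, q.Prime → padicValRat q t' =
      if q = p then 0 else padicValRat q t := fun q hq => by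
    have : Fact q.Prime := ⟨hq⟩
    rw [ht', padicValRat.mul ht.1 (zpow_ne_zero _ hpQ), padicValRat.zpow, padicValRat.of_nat]
    split_ifs with h
    · subst h
      rw [padicValNat.self hq.one_lt, hs]
      simp
    · rw [padicValNat_primes h]
      simp
  have htbox : SBox g (2 ^ m) t' := ⟨ht' ▸ mul_ne_zero ht.1 (zpow_ne_zero _ hpQ), fun q hq => by
    rw [hv q hq]
    split_ifs with h
    · simp
    · exact ht.2 q hq⟩
  have heq : aeval t' Q = (p : ℚ) ^ (b * d) * aeval t P := by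
    rw [hQ, map_sum, aeval_eq_sum_range, hd, mul_sum]
    refine sum_congr rfl fun i hi => ?_
    have hid : i ≤ d := Nat.lt_succ_iff.1 (mem_range.1 hi)
    rw [map_mul, map_pow, aeval_C, aeval_X, zsmul_eq_mul, ht', mul_pow, eq_intCast]
    push_cast
    have hsab : s = (a : ℤ) - b := by omega
    rw [hsab, neg_sub, zpow_sub₀ hpQ, zpow_natCast, zpow_natCast, div_pow, ← pow_mul, ← pow_mul,
      pow_add, show b * d = b * i + b * (d - i) by rw [← Nat.mul_add, Nat.add_sub_cancel' hid],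
      pow_add]
    field_simp
  have hQne : Q ≠ 0 := fun h => hQ0 (by rw [h, coeff_zero])
  obtain ⟨c, H, hcH, hHprim⟩ : ∃ c H, Q = C c * H ∧ H.IsPrimitive :=
    ⟨_, _, eq_C_content_mul_primPart Q, isPrimitive_primPart Q⟩
  have hc : c ≠ 0 := fun h => hQne (by rw [hcH, h, C_0, zero_mul])
  have hHk : ∀ i, (H.coeff i).natAbs ≤ 2 ^ k' := fun i => by
    refine le_trans ?_ (hQk i)
    rw [hcH, coeff_C_mul, Int.natAbs_mul]
    exact Nat.le_mul_of_pos_left _ (Int.natAbs_pos.2 hc)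
  have hck : c.natAbs ≤ 2 ^ k' := by
    refine le_trans ?_ (hQk 0)
    rw [hcH, coeff_C_mul, Int.natAbs_mul]
    exact Nat.le_mul_of_pos_right _ (Int.natAbs_pos.2 (right_ne_zero_of_mul (by
      rw [← coeff_C_mul, ← hcH]; exact hQ0)))
  have hprim : ∃ i, ¬ (p : ℤ) ∣ H.coeff i := by
    by_contra hno
    push Not at hno
    exact (Nat.prime_iff_prime_int.1 hp.out).not_isUnit
      (hHprim _ (C_dvd_iff_dvd_coeff _ _ |>.2 hno))
  have hHn : H.natDegree ≤ n := by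
    refine le_trans ?_ hQn
    rw [hcH, natDegree_C_mul hc]
  have hHne : aeval t' H ≠ 0 := fun h => by
    rw [hcH, map_mul, h, mul_zero, eq_comm, mul_eq_zero] at heq
    exact heq.elim (pow_ne_zero _ hpQ) hne
  have hmain := primitive_lower hpg hHn hHk hprim htbox
    (by rw [hv p hp.out, if_pos rfl]) hHne
  calc ((p : ℝ) ^ polyLoss n k g m)⁻¹
      ≤ ((p : ℝ) ^ k')⁻¹ * ((p : ℝ) ^ (k' + n * unitLoss n k' g m))⁻¹ := by
        rw [← mul_inv, ← pow_add]
        exact inv_anti₀ (by positivity) (pow_le_pow_right₀ hp1.le (by rw [polyLoss, ← hk']; omega))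
    _ ≤ ‖(c : ℂ_[p])‖ * ‖((aeval t' H : ℚ) : ℂ_[p])‖ :=
        mul_le_mul (inv_pow_le_norm hc (hck.trans (Nat.pow_le_pow_left hp.out.two_le _))) hmain
          (by positivity) (norm_nonneg _)
    _ = ‖((aeval t' Q : ℚ) : ℂ_[p])‖ := by
        rw [hcH, map_mul, aeval_C, eq_intCast, Rat.cast_mul, Rat.cast_intCast, norm_mul]
    _ ≤ _ := by
        rw [heq, Rat.cast_mul, norm_mul, Rat.cast_pow, Rat.cast_natCast, norm_pow]
        exact mul_le_of_le_one_left (norm_nonneg _)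
          (pow_le_one₀ (norm_nonneg _) (IsUltrametricDist.norm_natCast_le_one _ _))

end FA.EffectiveTorusCurves

end
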