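import Fermat.Agent.EffectiveTorusCurves.Place
import Mathlib.RingTheory.Polynomial.RationalRoot
import Mathlib.RingTheory.Localization.Rat

/-!
# The monomials largest at a prime

If they do not lie on a line the exponents of the prime in both coordinates are small; otherwise
a monomial `t = x ^ a * y ^ b` is a root of the polynomial on the line.
-/

set_option autoImplicit false

noncomputable section

namespace FA.EffectiveTorusCurves

open Finset Polynomial FA.Brumer FA.BakerExplicit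

/-- The value of the polynomial with the terms `c (i, j) x ^ i y ^ j`. -/
def curveValue (F : Finset (ℕ × ℕ)) (c : ℕ × ℕ → ℤ) (x y : ℚ) : ℚ :=
  ∑ e ∈ F, (c e : ℚ) * x ^ e.1 * y ^ e.2

/-- Degree at most `n`, non-zero coefficients of at most `k` bits. -/
def Sized (F : Finset (ℕ × ℕ)) (c : ℕ × ℕ → ℤ) (n k : ℕ) : Prop :=
  ∀ e ∈ F, e.1 + e.2 ≤ n ∧ c e ≠ 0 ∧ (c e).natAbs ≤ 2 ^ k

theorem Sized.card_le {F : Finset (ℕ × ℕ)} {c : ℕ × ℕ → ℤ} {n k : ℕ} (h : Sized F c n k) :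
    F.card ≤ (n + 1) ^ 2 := by
  refine (card_le_card (t := range (n + 1) ×ˢ range (n + 1)) fun e he => ?_).trans_eq (by
    rw [card_product, card_range, sq])
  have := (h e he).1
  exact mem_product.2 ⟨mem_range.2 (by omega), mem_range.2 (by omega)⟩

/-- A root of an integer polynomial with non-zero constant term has bounded height. -/
theorem rat_root_le {P : ℤ[X]} {k : ℕ} (hc0 : P.coeff 0 ≠ 0)
    (hk : ∀ i, (P.coeff i).natAbs ≤ 2 ^ k) {t : ℚ} (h : aeval t P = 0) :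
    t.num.natAbs ≤ 2 ^ k ∧ t.den ≤ 2 ^ k := by
  constructor
  · exact (Nat.le_of_dvd (Int.natAbs_pos.2 hc0) (Int.natAbs_dvd_natAbs.2
      ((Rat.isFractionRingNum t).symm.dvd.trans (num_dvd_of_is_root h)))).trans (hk 0)
  · have hP : P ≠ 0 := fun h0 => hc0 (by rw [h0, coeff_zero])
    rw [← Rat.isFractionRingDen]
    exact (Nat.le_of_dvd (Int.natAbs_pos.2 (leadingCoeff_ne_zero.2 hP))
      (Int.natAbs_dvd_natAbs.2 (den_dvd_of_is_root h))).trans (hk _)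

/-- The width of the windows. -/
def gapSize (n k g E : ℕ) : ℕ := polyLoss n k g (Nat.log 2 (2 * n * E) + 1) + k + 1

/-- A bound for the exponents at a prime. -/
def localBound (n k g E : ℕ) : ℕ := 2 * n * ((n + 1) ^ 2 * gapSize n k g E)

variable {p : ℕ} [hp : Fact p.Prime]

/-- **At one prime.** -/
theorem local_dichotomy {F : Finset (ℕ × ℕ)} {c : ℕ × ℕ → ℤ} {n k g E : ℕ} (hF : Sized F c n k)
    (hne : F.Nonempty) (hpg : p ≤ 2 ^ g) {x y : ℚ} (hx : SBox g E x) (hy : SBox g E y)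
    (hxy : curveValue F c x y = 0) :
    ((padicValRat p x).natAbs ≤ localBound n k g E ∧
      (padicValRat p y).natAbs ≤ localBound n k g E) ∨
    ∃ a b : ℤ, IsCoprime a b ∧ a.natAbs ≤ n ∧ b.natAbs ≤ n ∧
      (x ^ a * y ^ b).num.natAbs ≤ 2 ^ k ∧ (x ^ a * y ^ b).den ≤ 2 ^ k := by
  classical
  have hp1 := one_lt_prime p
  have hp0 : (0 : ℝ) < p := prime_pos p
  obtain ⟨X', hX'⟩ : ∃ z, padicValRat p x = z := ⟨_, rfl⟩
  obtain ⟨Y', hY'⟩ : ∃ z, padicValRat p y = z := ⟨_, rfl⟩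
  obtain ⟨Δ, hΔ⟩ : ∃ Δ, gapSize n k g E = Δ := ⟨_, rfl⟩
  have hΔk : k + 1 ≤ Δ := by rw [← hΔ, gapSize]; omega
  obtain ⟨val, hval⟩ : ∃ val : ℕ × ℕ → ℤ, ∀ e, val e = (e.1 : ℤ) * X' + (e.2 : ℤ) * Y' :=
    ⟨_, fun _ => rfl⟩
  obtain ⟨e₀, he₀, hmin⟩ := exists_min_image F val hne
  -- a window without exponents
  obtain ⟨l, hl, hgap⟩ : ∃ l ∈ Icc 1 F.card, ∀ e ∈ F,
      val e ≤ val e₀ + (l * Δ : ℕ) ∨ val e₀ + ((l + 1) * Δ : ℕ) < val e := by
    by_contra hno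
    push Not at hno
    choose w hwF hw1 hw2 using hno
    have hle := card_le_card_of_injOn (s := (Icc 1 F.card).attach) (t := F.erase e₀)
      (fun l => w l.1 l.2) (fun l _ => mem_erase.2 ⟨fun h => by
        have h1 := hw1 l.1 l.2
        simp only at h
        rw [h] at h1
        have : (0 : ℤ) ≤ ((l.1 * Δ : ℕ) : ℤ) := Int.natCast_nonneg _
        omega, hwF l.1 l.2⟩)
      (fun l _ l' _ h => Subtype.ext (by
        by_contra hne'
        have key : ∀ l l' : {x // x ∈ Icc 1 F.card}, l.1 < l'.1 →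
            w l.1 l.2 = w l'.1 l'.2 → False := fun l l' hlt h => by
          have h1 := hw2 l.1 l.2
          have h2 := hw1 l'.1 l'.2
          rw [h] at h1
          have h3 : ((l.1 + 1) * Δ : ℕ) ≤ l'.1 * Δ := Nat.mul_le_mul_right Δ hlt
          omega
        rcases lt_or_gt_of_ne hne' with hlt | hlt
        · exact key l l' hlt h
        · exact key l' l hlt h.symm))
    rw [card_attach, Nat.card_Icc, card_erase_of_mem he₀] at hle
    have := hne.card_pos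
    omega
  obtain ⟨G, hG⟩ : ∃ G, G = F.filter fun e => val e ≤ val e₀ + (l * Δ : ℕ) := ⟨_, rfl⟩
  have hGF : ∀ e ∈ G, e ∈ F ∧ val e ≤ val e₀ + (l * Δ : ℕ) := fun e he => by
    rw [hG, mem_filter] at he; exact he
  have he₀G : e₀ ∈ G := by
    rw [hG, mem_filter]; exact ⟨he₀, le_add_of_nonneg_right (Int.natCast_nonneg _)⟩
  have hlN : l * Δ ≤ (n + 1) ^ 2 * Δ :=
    Nat.mul_le_mul_right Δ ((mem_Icc.1 hl).2.trans hF.card_le)
  by_cases hdet : ∃ e ∈ G, ∃ e' ∈ G, ((e.1 : ℤ) - e₀.1) * ((e'.2 : ℤ) - e₀.2) -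
      ((e.2 : ℤ) - e₀.2) * ((e'.1 : ℤ) - e₀.1) ≠ 0
  · left
    obtain ⟨e, he, e', he', hd⟩ := hdet
    obtain ⟨D, hD⟩ : ∃ D, D = ((e.1 : ℤ) - e₀.1) * ((e'.2 : ℤ) - e₀.2) -
      ((e.2 : ℤ) - e₀.2) * ((e'.1 : ℤ) - e₀.1) := ⟨_, rfl⟩
    have hsmall : ∀ z ∈ G, (val z - val e₀).natAbs ≤ (n + 1) ^ 2 * Δ := fun z hz => by
      have h1 := (hGF z hz).2
      have h2 := hmin z (hGF z hz).1
      omega
    have hn' : ∀ {z : ℕ × ℕ}, z ∈ F → ((z.1 : ℤ) - e₀.1).natAbs ≤ n ∧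
        ((z.2 : ℤ) - e₀.2).natAbs ≤ n := fun hz => by
      have := (hF _ hz).1
      have := (hF _ he₀).1
      constructor <;> omega
    have key : ∀ {Z a a' : ℤ}, Z * D = a' * (val e - val e₀) - a * (val e' - val e₀) →
        a.natAbs ≤ n → a'.natAbs ≤ n → Z.natAbs ≤ localBound n k g E := fun {Z a a'} hZ ha ha' => by
      have h1 := congrArg Int.natAbs hZ
      rw [Int.natAbs_mul] at h1
      have h2 : Z.natAbs ≤ Z.natAbs * D.natAbs :=
        Nat.le_mul_of_pos_right _ (Int.natAbs_pos.2 (hD ▸ hd))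
      refine h2.trans (h1.trans_le ((Int.natAbs_sub_le _ _).trans ?_))
      rw [Int.natAbs_mul, Int.natAbs_mul, localBound, hΔ, two_mul, add_mul]
      exact Nat.add_le_add (Nat.mul_le_mul ha' (hsmall e he)) (Nat.mul_le_mul ha (hsmall e' he'))
    rw [hX', hY']
    refine ⟨key (a := (e.2 : ℤ) - e₀.2) (a' := (e'.2 : ℤ) - e₀.2) ?_ (hn' (hGF e he).1).2
      (hn' (hGF e' he').1).2, key (a := -((e.1 : ℤ) - e₀.1)) (a' := -((e'.1 : ℤ) - e₀.1)) ?_
      (by rw [Int.natAbs_neg]; exact (hn' (hGF e he).1).1)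
      (by rw [Int.natAbs_neg]; exact (hn' (hGF e' he').1).1)⟩ <;>
    · simp only [hval, hD]; ring
  right
  push Not at hdet
  -- the sizes of the terms
  obtain ⟨T, hT⟩ : ∃ T : ℕ × ℕ → ℂ_[p], ∀ e, T e = (c e : ℂ_[p]) * (x : ℂ_[p]) ^ e.1 *
      (y : ℂ_[p]) ^ e.2 := ⟨_, fun _ => rfl⟩
  have hmono : ∀ e : ℕ × ℕ, ‖(x : ℂ_[p]) ^ e.1 * (y : ℂ_[p]) ^ e.2‖ = (p : ℝ) ^ (-val e) :=
    fun e => by
      rw [norm_mul, norm_pow, norm_pow, norm_ratCast x hx.1, norm_ratCast y hy.1, hX', hY',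
        ← zpow_natCast, ← zpow_natCast, ← zpow_mul, ← zpow_mul, ← zpow_add₀ hp0.ne', hval]
      ring_nf
  have hsum : ∑ e ∈ G, T e = -∑ e ∈ F.filter (fun e => ¬val e ≤ val e₀ + (l * Δ : ℕ)), T e := by
    rw [eq_neg_iff_add_eq_zero, hG, sum_filter_add_sum_filter_not]
    have := congrArg (fun z : ℚ => (z : ℂ_[p])) hxy
    simpa [curveValue, hT] using this
  have hout : ‖∑ e ∈ G, T e‖ ≤ (p : ℝ) ^ (-(val e₀ + ((l + 1) * Δ : ℕ))) := by
    rw [hsum, norm_neg]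
    refine IsUltrametricDist.norm_sum_le_of_forall_le_of_nonneg (by positivity) fun e he => ?_
    rw [mem_filter] at he
    rw [hT, mul_assoc, norm_mul, hmono]
    refine (mul_le_of_le_one_left (by positivity) (norm_intCast_le_one _)).trans ?_
    exact zpow_le_zpow_right₀ hp1.le (by
      have := (hgap e he.1).resolve_left he.2
      omega)
  obtain ⟨e₁, he₁, hne₁⟩ : ∃ e ∈ G, e ≠ e₀ := by
    by_contra hno
    push Not at hno
    rw [eq_singleton_iff_unique_mem.2 ⟨he₀G, hno⟩, sum_singleton, hT, mul_assoc, norm_mul,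
      hmono] at hout
    have h1 : (p : ℝ) ^ (-(k : ℤ)) ≤ ‖(c e₀ : ℂ_[p])‖ := by
      rw [zpow_neg, zpow_natCast]
      exact inv_pow_le_norm (hF e₀ he₀).2.1
        ((hF e₀ he₀).2.2.trans (Nat.pow_le_pow_left hp.out.two_le k))
    have h2 := (mul_le_mul_of_nonneg_right h1 (zpow_nonneg hp0.le _)).trans hout
    rw [← zpow_add₀ hp0.ne'] at h2
    have h3 := (zpow_le_zpow_iff_right₀ hp1).1 h2
    have : Δ ≤ (l + 1) * Δ := Nat.le_mul_of_pos_left _ (Nat.succ_pos l)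
    omega
  obtain ⟨hn1, -, -⟩ := hF e₁ (hGF e₁ he₁).1
  have hn0 := (hF e₀ he₀).1
  have hgpos : 0 < Int.gcd ((e₁.1 : ℤ) - e₀.1) ((e₁.2 : ℤ) - e₀.2) :=
    Nat.pos_of_ne_zero fun h0 => hne₁ (by
      rw [Int.gcd_eq_zero_iff] at h0
      exact Prod.ext (by omega) (by omega))
  obtain ⟨γ, a, b, hγ, hab, hdi, hdj⟩ := Int.exists_gcd_one' hgpos
  have hcop : IsCoprime a b := Int.isCoprime_iff_gcd_eq_one.2 hab
  obtain ⟨u, v, huv⟩ := hcop
  have habn : a.natAbs ≤ n ∧ b.natAbs ≤ n := by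
    have h1 := congrArg Int.natAbs hdi
    have h2 := congrArg Int.natAbs hdj
    rw [Int.natAbs_mul, Int.natAbs_natCast] at h1 h2
    exact ⟨(Nat.le_mul_of_pos_right _ hγ).trans (h1.symm.trans_le (by omega)),
      (Nat.le_mul_of_pos_right _ hγ).trans (h2.symm.trans_le (by omega))⟩
  obtain ⟨m, hm⟩ : ∃ m : ℕ × ℕ → ℤ, ∀ e, m e = u * ((e.1 : ℤ) - e₀.1) + v * ((e.2 : ℤ) - e₀.2) :=
    ⟨_, fun _ => rfl⟩
  have hline : ∀ e ∈ G, (e.1 : ℤ) - e₀.1 = a * m e ∧ (e.2 : ℤ) - e₀.2 = b * m e := fun e he => by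
    have h1 := hdet e₁ he₁ e he
    rw [hdi, hdj] at h1
    have h2 : a * ((e.2 : ℤ) - e₀.2) - b * ((e.1 : ℤ) - e₀.1) = 0 :=
      (mul_eq_zero.1 (show (γ : ℤ) * (a * ((e.2 : ℤ) - e₀.2) - b * ((e.1 : ℤ) - e₀.1)) = 0 by
        linear_combination h1)).resolve_left (by exact_mod_cast hγ.ne')
    rw [hm]
    constructor
    · linear_combination -((e.1 : ℤ) - e₀.1) * huv - v * h2
    · linear_combination -((e.2 : ℤ) - e₀.2) * huv + u * h2
  obtain ⟨es, hes, hesmin⟩ := exists_min_image G m ⟨e₀, he₀G⟩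
  obtain ⟨K, hK⟩ : ∃ K : ℕ × ℕ → ℕ, ∀ e, K e = (m e - m es).toNat := ⟨_, fun _ => rfl⟩
  have hKeq : ∀ e ∈ G, (e.1 : ℤ) = es.1 + a * K e ∧ (e.2 : ℤ) = es.2 + b * K e := fun e he => by
    rw [hK, Int.toNat_of_nonneg (sub_nonneg.2 (hesmin e he))]
    obtain ⟨h1, h2⟩ := hline e he
    obtain ⟨h3, h4⟩ := hline es hes
    constructor <;> linarith
  have hKn : ∀ e ∈ G, K e ≤ n := fun e he => by
    have h3 := (hF e (hGF e he).1).1
    have h4 := (hF es (hGF es hes).1).1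
    obtain ⟨h1, h2⟩ := hKeq e he
    rcases eq_or_ne a 0 with rfl | ha
    · have hb : 1 ≤ b.natAbs := Int.natAbs_pos.2 fun h0 => by subst h0; simp at huv
      have h5 : (b * (K e : ℤ)).natAbs ≤ n := by omega
      rw [Int.natAbs_mul, Int.natAbs_natCast] at h5
      exact (Nat.le_mul_of_pos_left _ hb).trans h5
    · have h5 : (a * (K e : ℤ)).natAbs ≤ n := by omega
      rw [Int.natAbs_mul, Int.natAbs_natCast] at h5
      exact (Nat.le_mul_of_pos_left _ (Int.natAbs_pos.2 ha)).trans h5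
  have hKinj : ∀ e ∈ G, ∀ e' ∈ G, K e = K e' → e = e' := fun e he e' he' h => by
    obtain ⟨h1, h2⟩ := hKeq e he
    obtain ⟨h3, h4⟩ := hKeq e' he'
    rw [h] at h1 h2
    exact Prod.ext (by omega) (by omega)
  obtain ⟨P, hP⟩ : ∃ P : ℤ[X], P = ∑ e ∈ G, C (c e) * Polynomial.X ^ K e := ⟨_, rfl⟩
  have hcoeff : ∀ i, P.coeff i = ∑ e ∈ G.filter (fun e => i = K e), c e := fun i => by
    simp only [hP, finsetSum_coeff, coeff_C_mul_X_pow, sum_filter]
  have hcoeff' : ∀ e ∈ G, P.coeff (K e) = c e := fun e he => by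
    rw [hcoeff]
    exact sum_eq_single e (fun e' he' hne' => absurd
      (hKinj e' (mem_filter.1 he').1 e he (mem_filter.1 he').2.symm) hne')
      fun h => absurd (mem_filter.2 (⟨he, rfl⟩ : e ∈ G ∧ K e = K e)) h
  have hPn : P.natDegree ≤ n := natDegree_le_iff_coeff_eq_zero.2 fun i hi => by
    rw [hcoeff]
    exact sum_eq_zero fun e he => absurd (hKn e (mem_filter.1 he).1)
      (by rw [← (mem_filter.1 he).2]; omega)
  have hPk : ∀ i, (P.coeff i).natAbs ≤ 2 ^ k := fun i => by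
    by_cases h : ∃ e ∈ G, K e = i
    · obtain ⟨e, he, rfl⟩ := h
      rw [hcoeff' e he]
      exact (hF e (hGF e he).1).2.2
    · rw [hcoeff, sum_eq_zero fun e he => absurd ⟨e, (mem_filter.1 he).1,
        (mem_filter.1 he).2.symm⟩ h]
      exact Nat.zero_le _
  have hP0 : P.coeff 0 ≠ 0 := by
    have := hcoeff' es hes
    rw [hK, sub_self, Int.toNat_zero] at this
    rw [this]
    exact (hF es (hGF es hes).1).2.1
  obtain ⟨t, ht⟩ : ∃ t, t = x ^ a * y ^ b := ⟨_, rfl⟩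
  have hrel : ∑ e ∈ G, T e = (x : ℂ_[p]) ^ es.1 * (y : ℂ_[p]) ^ es.2 *
      ((aeval t P : ℚ) : ℂ_[p]) := by
    rw [hP, map_sum, Rat.cast_sum, mul_sum]
    refine sum_congr rfl fun e he => ?_
    obtain ⟨h1, h2⟩ := hKeq e he
    have hx0 : (x : ℂ_[p]) ≠ 0 := Rat.cast_ne_zero.2 hx.1
    have hy0 : (y : ℂ_[p]) ≠ 0 := Rat.cast_ne_zero.2 hy.1
    rw [map_mul, map_pow, aeval_C, aeval_X, eq_intCast, hT, ht]
    push_cast
    rw [mul_pow, ← zpow_natCast (x : ℂ_[p]) e.1, ← zpow_natCast (y : ℂ_[p]) e.2, h1, h2,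
      zpow_add₀ hx0, zpow_add₀ hy0, zpow_mul, zpow_mul, zpow_natCast, zpow_natCast, zpow_natCast,
      zpow_natCast]
    ring
  have ht2 : SBox g (2 ^ (Nat.log 2 (2 * n * E) + 1)) t := by
    rw [ht]
    refine ((hx.zpow a).mul (hy.zpow b)).mono ?_
    refine le_trans ?_ (Nat.lt_pow_succ_log_self one_lt_two _).le
    rw [two_mul, add_mul]
    exact Nat.add_le_add (Nat.mul_le_mul_right E habn.1) (Nat.mul_le_mul_right E habn.2)
  refine ⟨a, b, Int.isCoprime_iff_gcd_eq_one.2 hab, habn.1, habn.2, ht ▸ rat_root_le hP0 hPk ?_⟩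
  by_contra hne'
  have h1 := poly_lower hpg hPn hPk hP0 ht2 hne'
  rw [hrel, norm_mul, hmono] at hout
  have h2 := (mul_le_mul_of_nonneg_left h1 (zpow_nonneg hp0.le _)).trans hout
  rw [← zpow_natCast, ← zpow_neg, ← zpow_add₀ hp0.ne'] at h2
  have h3 := (zpow_le_zpow_iff_right₀ hp1).1 h2
  have h4 := (hGF es hes).2
  rw [gapSize] at hΔ
  push_cast at h3 h4
  nlinarith

end FA.EffectiveTorusCurves

end
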