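import Fermat.Agent.BakerExplicit.SUnitPlaces
import Mathlib.RingTheory.IntegralClosure.Algebra.Basic
import Mathlib.Algebra.Polynomial.Roots
import Mathlib.Algebra.Polynomial.Splits
import Mathlib.FieldTheory.IntermediateField.Adjoin.Basic

/-!
# The roots of an integer polynomial at a `p`-adic place

A root of absolute value `1` of a polynomial with a coefficient prime to `p` is a quotient of two
bounded algebraic integers of absolute value `1`.
-/

set_option autoImplicit false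

noncomputable section

namespace FA.EffectiveTorusCurves

open Finset Polynomial NumberField Module FA.Brumer BakerExplicit.EffectiveSUnits

variable {p : ℕ} [hp : Fact p.Prime]

theorem norm_ratCast (q : ℚ) (hq : q ≠ 0) :
    ‖(q : ℂ_[p])‖ = (p : ℝ) ^ (-padicValRat p q) := by
  rw [← map_ratCast (algebraMap ℚ_[p] ℂ_[p]), norm_algebraMap', Padic.eq_padicNorm,
    padicNorm.eq_zpow_of_nonzero hq]
  push_cast
  rfl

/-- The roots have bounded absolute values. -/
theorem root_norm_le {H : ℤ[X]} (hH : H ≠ 0) {n k : ℕ} (hn : H.natDegree ≤ n)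
    (hk : ∀ i, (H.coeff i).natAbs ≤ 2 ^ k) {z : ℂ} (hz : aeval z H = 0) :
    ‖z‖ ≤ (2 : ℝ) ^ (k + n) := by
  rcases le_total ‖z‖ 1 with h1 | h1
  · exact h1.trans (one_le_pow₀ one_le_two)
  obtain ⟨d, hd⟩ : ∃ d, H.natDegree = d := ⟨_, rfl⟩
  rw [aeval_eq_sum_range, hd, sum_range_succ, add_eq_zero_iff_eq_neg] at hz
  rcases Nat.eq_zero_or_pos d with h0 | hdpos
  · subst h0
    simp only [range_zero, sum_empty, pow_zero, zsmul_eq_mul, mul_one, zero_eq_neg,
      Int.cast_eq_zero] at hz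
    exact absurd hz (by rw [← hd]; exact leadingCoeff_ne_zero.2 hH)
  have hbound : ‖∑ i ∈ range d, H.coeff i • z ^ i‖ ≤ (d : ℝ) * (2 : ℝ) ^ k * ‖z‖ ^ (d - 1) := by
    refine (norm_sum_le _ _).trans ((sum_le_card_nsmul _ _ ((2 : ℝ) ^ k * ‖z‖ ^ (d - 1))
      fun i hi => ?_).trans_eq (by rw [card_range, nsmul_eq_mul, mul_assoc]))
    rw [zsmul_eq_mul, norm_mul, norm_pow, Complex.norm_intCast]
    refine mul_le_mul ?_ (pow_le_pow_right₀ h1 ?_) (by positivity) (by positivity)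
    · rw [← Int.cast_abs, Int.abs_eq_natAbs, Int.cast_natCast]
      exact_mod_cast hk i
    · have := mem_range.1 hi
      omega
  have hlead : 1 ≤ ‖((H.coeff d : ℤ) : ℂ)‖ := by
    rw [Complex.norm_intCast, ← Int.cast_abs, ← Int.cast_one, Int.cast_le]
    exact Int.one_le_abs (by rw [← hd]; exact leadingCoeff_ne_zero.2 hH)
  have h2 := congrArg (fun w : ℂ => ‖w‖) hz
  rw [norm_neg, zsmul_eq_mul, norm_mul, norm_pow] at h2
  have hpos : 0 < ‖z‖ ^ (d - 1) := pow_pos (lt_of_lt_of_le one_pos h1) _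
  have h3 : ‖z‖ * ‖z‖ ^ (d - 1) ≤ (d : ℝ) * (2 : ℝ) ^ k * ‖z‖ ^ (d - 1) := by
    rw [← pow_succ', Nat.sub_add_cancel hdpos]
    exact ((le_mul_of_one_le_left (by positivity) hlead).trans_eq h2.symm).trans hbound
  refine (le_of_mul_le_mul_right h3 hpos).trans ?_
  rw [pow_add, mul_comm]
  refine mul_le_mul_of_nonneg_left ?_ (by positivity)
  exact_mod_cast (hd ▸ hn : d ≤ n).trans Nat.lt_two_pow_self.le

/-- The size of the two integers of a root. -/
def rootSize (n k : ℕ) : ℕ := (k + n) * (n + 2)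

variable {K : Type*} [Field K] [NumberField K]

/-- The tails `∑ᵢ ≥ ⱼ hᵢ θ ^ (i - j)`. -/
def tailSum (H : ℤ[X]) (θ : K) (j : ℕ) : K :=
  ∑ i ∈ Ico j (H.natDegree + 1), (H.coeff i : K) * θ ^ (i - j)

omit [NumberField K] in
theorem tailSum_succ (H : ℤ[X]) (θ : K) {j : ℕ} (hj : j ≤ H.natDegree) :
    tailSum H θ j = H.coeff j + θ * tailSum H θ (j + 1) := by
  rw [tailSum, sum_eq_sum_Ico_succ_bot (Nat.lt_succ_of_le hj), Nat.sub_self, pow_zero, mul_one,
    tailSum, mul_sum]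
  congr 1
  refine sum_congr rfl fun i hi => ?_
  have := (mem_Ico.1 hi).1
  rw [show i - j = i - (j + 1) + 1 by omega, pow_succ]
  ring

omit [NumberField K] in
theorem tailSum_zero {H : ℤ[X]} {θ : K} (hθ : aeval θ H = 0) : tailSum H θ 0 = 0 := by
  rw [aeval_eq_sum_range] at hθ
  rw [tailSum, ← Finset.range_eq_Ico]
  simpa [zsmul_eq_mul] using hθ

theorem isIntegral_tailSum {H : ℤ[X]} {θ : K} (hθ : aeval θ H = 0) (j : ℕ) :
    IsIntegral ℤ (tailSum H θ j) := by
  rcases Nat.eq_zero_or_pos j with rfl | hj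
  · rw [tailSum_zero hθ]; exact isIntegral_zero
  obtain ⟨d, hd⟩ : ∃ d, H.natDegree = d := ⟨_, rfl⟩
  rcases Nat.lt_or_ge d j with hdj | hdj
  · rw [tailSum, hd, Ico_eq_empty (by omega), sum_empty]; exact isIntegral_zero
  obtain ⟨M, hM⟩ : ∃ M, M = Submodule.span ℤ (Set.range fun i : Fin d => θ ^ (i : ℕ)) :=
    ⟨_, rfl⟩
  have hmem : ∀ e < d, θ ^ e ∈ M := fun e he => hM ▸ Submodule.subset_span ⟨⟨e, he⟩, rfl⟩
  refine isIntegral_of_smul_mem_submodule M ?_ (hM ▸ Submodule.fg_span (Set.finite_range _))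
    _ fun m hm => ?_
  · refine fun h0 => one_ne_zero (α := K) ?_
    have := hmem 0 (by omega)
    rwa [h0, Submodule.mem_bot, pow_zero] at this
  rw [hM] at hm
  induction hm using Submodule.span_induction with
  | zero => rw [smul_zero]; exact M.zero_mem
  | add x y _ _ hx hy => rw [smul_add]; exact M.add_mem hx hy
  | smul c x _ hx => rw [smul_comm]; exact M.smul_mem c hx
  | mem x hx =>
    obtain ⟨⟨e, he⟩, rfl⟩ := hx
    have hterm : ∀ (c : ℤ) {l : ℕ}, l < d → (c : K) * θ ^ l ∈ M := fun c l hl => by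
      rw [← zsmul_eq_mul]; exact M.smul_mem c (hmem l hl)
    show tailSum H θ j * θ ^ e ∈ M
    rw [tailSum, hd, sum_mul]
    rcases Nat.lt_or_ge e j with hej | hej
    · refine M.sum_mem fun i hi => ?_
      rw [mul_assoc, ← pow_add]
      exact hterm _ (by have := mem_Ico.1 hi; omega)
    have hsum := tailSum_zero hθ
    rw [tailSum, hd, ← Finset.sum_Ico_consecutive _ (Nat.zero_le j) (by omega : j ≤ d + 1),
      add_eq_zero_iff_eq_neg'] at hsum
    have e1 : ∀ i ∈ Ico j (d + 1), (H.coeff i : K) * θ ^ (i - j) * θ ^ e =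
        (H.coeff i : K) * θ ^ (i - 0) * θ ^ (e - j) := fun i hi => by
      have := (mem_Ico.1 hi).1
      rw [mul_assoc, mul_assoc, ← pow_add, ← pow_add]
      congr 2
      omega
    rw [sum_congr rfl e1, ← sum_mul, hsum, neg_mul, sum_mul]
    refine M.neg_mem (M.sum_mem fun i hi => ?_)
    rw [mul_assoc, ← pow_add]
    exact hterm _ (by have := mem_Ico.1 hi; omega)

/-- **A root of absolute value `1` as a quotient of units at the place.** -/
theorem unit_quotient {H : ℤ[X]} {n k : ℕ} (hn : H.natDegree ≤ n)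
    (hk : ∀ i, (H.coeff i).natAbs ≤ 2 ^ k) (hprim : ∃ i, ¬ (p : ℤ) ∣ H.coeff i) {θ : K}
    (hθ : aeval θ H = 0) (ψ : K →+* ℂ_[p]) (hψ : ‖ψ θ‖ = 1) :
    ∃ a b : 𝓞 K, (a : K) = θ * b ∧ ‖ψ (a : K)‖ = 1 ∧ ‖ψ (b : K)‖ = 1 ∧
      ∀ σ : K →+* ℂ, ‖σ (a : K)‖ ≤ (2 : ℝ) ^ rootSize n k ∧
        ‖σ (b : K)‖ ≤ (2 : ℝ) ^ rootSize n k := by
  obtain ⟨i₀, hi₀⟩ := hprim
  have hH0 : H ≠ 0 := fun h => hi₀ (by rw [h, coeff_zero]; exact dvd_zero _)
  have hi₀d : i₀ ≤ H.natDegree := le_natDegree_of_ne_zero fun h => hi₀ (by rw [h]; exact dvd_zero _)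
  have hle1 : ∀ j, ‖ψ (tailSum H θ j)‖ ≤ 1 := fun j =>
    norm_le_one_of_integral (map_isIntegral_int ψ (isIntegral_tailSum hθ j))
  obtain ⟨j, hj1, hjd⟩ : ∃ j, ‖ψ (tailSum H θ (j + 1))‖ = 1 ∧ j < H.natDegree + 1 := by
    by_contra hno
    push Not at hno
    have hlt : ∀ j, ‖ψ (tailSum H θ j)‖ < 1 := fun j => by
      rcases j with _ | j
      · rw [tailSum_zero hθ, map_zero, norm_zero]; exact one_pos
      · rcases Nat.lt_or_ge j (H.natDegree + 1) with h | h
        · exact lt_of_le_of_ne (hle1 _) fun he => (hno j he).not_gt h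
        · rw [tailSum, Ico_eq_empty (by omega), sum_empty, map_zero, norm_zero]
          exact one_pos
    refine hi₀ ((Padic.norm_intCast_lt_one_iff (p := p)).1 ?_)
    rw [← norm_intCast p (C := ℂ_[p]), ← map_intCast ψ,
      eq_sub_of_add_eq (tailSum_succ H θ hi₀d).symm, map_sub, map_mul]
    rw [sub_eq_add_neg]
    refine lt_of_le_of_lt (IsUltrametricDist.norm_add_le_max _ _) (max_lt (hlt _) ?_)
    rw [norm_neg]
    rw [norm_mul, hψ, one_mul]
    exact hlt _
  have haint : IsIntegral ℤ (θ * tailSum H θ (j + 1)) := by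
    rw [eq_sub_of_add_eq' (tailSum_succ H θ (show j ≤ H.natDegree by omega)).symm]
    exact (isIntegral_tailSum hθ j).sub isIntegral_algebraMap
  refine ⟨⟨_, haint⟩, ⟨_, isIntegral_tailSum hθ (j + 1)⟩, rfl, ?_, hj1, fun σ => ?_⟩
  · show ‖ψ (θ * tailSum H θ (j + 1))‖ = 1
    rw [map_mul, norm_mul, hψ, one_mul, hj1]
  have hσθ : ‖σ θ‖ ≤ (2 : ℝ) ^ (k + n) := by
    refine root_norm_le hH0 hn hk ?_
    rw [show σ θ = σ.toIntAlgHom θ from rfl, aeval_algHom_apply, hθ, map_zero]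
  have hb : ‖σ (tailSum H θ (j + 1))‖ ≤ (2 : ℝ) ^ (n + k + (k + n) * n) := by
    rw [tailSum, map_sum]
    refine (norm_sum_le _ _).trans ((sum_le_card_nsmul _ _ ((2 : ℝ) ^ (k + (k + n) * n))
      fun i hi => ?_).trans ?_)
    · rw [map_mul, map_intCast, map_pow, norm_mul, norm_pow, Complex.norm_intCast, pow_add,
        pow_mul]
      refine mul_le_mul ?_ ((pow_le_pow_left₀ (norm_nonneg _) hσθ _).trans
        (pow_le_pow_right₀ (one_le_pow₀ one_le_two) ?_)) (by positivity) (by positivity)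
      · rw [← Int.cast_abs, Int.abs_eq_natAbs, Int.cast_natCast]
        exact_mod_cast hk i
      · have := mem_Ico.1 hi
        omega
    · rw [nsmul_eq_mul, add_assoc n, pow_add _ n]
      refine mul_le_mul_of_nonneg_right ?_ (by positivity)
      rw [Nat.card_Ico]
      have h1 := Nat.lt_two_pow_self (n := n)
      exact_mod_cast (show H.natDegree + 1 - (j + 1) ≤ 2 ^ n by omega)
  refine ⟨?_, hb.trans (pow_le_pow_right₀ one_le_two ?_)⟩
  · show ‖σ (θ * tailSum H θ (j + 1))‖ ≤ _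
    rw [map_mul, norm_mul]
    refine (mul_le_mul hσθ hb (norm_nonneg _) (by positivity)).trans ?_
    rw [← pow_add]
    exact pow_le_pow_right₀ one_le_two (le_of_eq (by rw [rootSize]; ring))
  · rw [rootSize]
    nlinarith [Nat.zero_le k, Nat.zero_le n]

end FA.EffectiveTorusCurves

end
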